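/-
General facts on meromorphic functions on `ℍ` with expansions at infinity.
-/
import Fermat.Agent.ModFun.Basic
import Fermat.Agent.Multiplier.Basic

set_option autoImplicit false

noncomputable section

open Filter UpperHalfPlane ModularCurve Fermat.Agent.ModFun
open scoped Topology MatrixGroups

namespace Fermat.Agent.Places

variable {f f' g g' : ℍ → ℂ}

theorem coe_smul_eq (γ : SL(2, ℤ)) (τ : ℍ) :
    ((γ • τ : ℍ) : ℂ) = Multiplier.act γ τ :=
  Multiplier.coe_smul_eq_act γ τ

theorem comp_smul_ofComplex_eventuallyEq (f : ℍ → ℂ) (γ : SL(2, ℤ)) {z : ℂ}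
    (hz : z ∈ Multiplier.H) :
    ((fun τ => f (γ • τ)) ∘ ofComplex) =ᶠ[𝓝 z] (f ∘ ofComplex) ∘ Multiplier.act γ := by
  filter_upwards [Multiplier.isOpen_H.mem_nhds hz] with w hw
  have hw' : 0 < w.im := hw
  simp only [Function.comp_apply]
  rw [ofComplex_apply_of_im_pos hw']
  have : Multiplier.act γ w = ((γ • (⟨w, hw'⟩ : ℍ) : ℍ) : ℂ) := (coe_smul_eq γ ⟨w, hw'⟩).symm
  rw [this, ofComplex_apply]

theorem eqPunct_of_eq (h : f = g) : EqPunct f g := h ▸ EqPunct.refl f

theorem eqPunct_add (h : EqPunct f g) (h' : EqPunct f' g') : EqPunct (f + f') (g + g') :=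
  fun τ => (h τ).add (h' τ)

theorem eqPunct_mul (h : EqPunct f g) (h' : EqPunct f' g') : EqPunct (f * f') (g * g') :=
  fun τ => (h τ).mul (h' τ)

theorem eqPunct_neg (h : EqPunct f g) : EqPunct (-f) (-g) := fun τ => (h τ).neg

theorem eqPunct_sub (h : EqPunct f g) (h' : EqPunct f' g') : EqPunct (f - f') (g - g') :=
  fun τ => (h τ).sub (h' τ)

theorem eqPunct_inv (h : EqPunct f g) : EqPunct f⁻¹ g⁻¹ := fun τ => (h τ).inv

theorem eqPunct_pow (h : EqPunct f g) (n : ℕ) : EqPunct (f ^ n) (g ^ n) := by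
  induction n with
  | zero => simpa using EqPunct.refl (1 : ℍ → ℂ)
  | succ n ih => simpa [pow_succ] using eqPunct_mul ih h

theorem eqPunct_comp_smul (h : EqPunct f g) (γ : SL(2, ℤ)) :
    EqPunct (fun τ => f (γ • τ)) (fun τ => g (γ • τ)) := by
  intro τ
  have hz : (τ : ℂ) ∈ Multiplier.H := τ.im_pos
  have h1 := comp_smul_ofComplex_eventuallyEq f γ hz
  have h2 := comp_smul_ofComplex_eventuallyEq g γ hz
  have h3 : (f ∘ ofComplex) ∘ Multiplier.act γ =ᶠ[𝓝[≠] (τ : ℂ)]
      (g ∘ ofComplex) ∘ Multiplier.act γ := by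
    have := h (γ • τ)
    rw [coe_smul_eq] at this
    exact this.comp_tendsto (Multiplier.tendsto_act_nhdsNE γ hz)
  exact ((h1.filter_mono nhdsWithin_le_nhds).trans h3).trans
    (h2.filter_mono nhdsWithin_le_nhds).symm

theorem eqPunct_sum {ι : Type*} {s : Finset ι} {F G : ι → ℍ → ℂ}
    (h : ∀ i ∈ s, EqPunct (F i) (G i)) : EqPunct (∑ i ∈ s, F i) (∑ i ∈ s, G i) := by
  classical
  induction s using Finset.induction_on with
  | empty => simpa using EqPunct.refl (0 : ℍ → ℂ)
  | insert a t hat ih =>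
    rw [Finset.sum_insert hat, Finset.sum_insert hat]
    exact eqPunct_add (h a (by simp)) (ih fun i hi => h i (Finset.mem_insert_of_mem hi))

theorem eqPunct_prod {ι : Type*} {s : Finset ι} {F G : ι → ℍ → ℂ}
    (h : ∀ i ∈ s, EqPunct (F i) (G i)) : EqPunct (∏ i ∈ s, F i) (∏ i ∈ s, G i) := by
  classical
  induction s using Finset.induction_on with
  | empty => simpa using EqPunct.refl (1 : ℍ → ℂ)
  | insert a t hat ih =>
    rw [Finset.prod_insert hat, Finset.prod_insert hat]
    exact eqPunct_mul (h a (by simp)) (ih fun i hi => h i (Finset.mem_insert_of_mem hi))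

theorem meroH_const (c : ℂ) : MeroH fun _ => c := fun z _ => MeromorphicAt.const c z

theorem meroH_add (hf : MeroH f) (hg : MeroH g) : MeroH (f + g) := MeromorphicOn.add hf hg

theorem meroH_sub (hf : MeroH f) (hg : MeroH g) : MeroH (f - g) := MeromorphicOn.sub hf hg

theorem meroH_neg (hf : MeroH f) : MeroH (-f) := MeromorphicOn.neg hf

theorem meroH_mul (hf : MeroH f) (hg : MeroH g) : MeroH (f * g) := MeromorphicOn.mul hf hg

theorem meroH_inv (hf : MeroH f) : MeroH f⁻¹ := MeromorphicOn.inv hf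

theorem meroH_sum {ι : Type*} {s : Finset ι} {F : ι → ℍ → ℂ} (h : ∀ i ∈ s, MeroH (F i)) :
    MeroH (∑ i ∈ s, F i) := by
  classical
  induction s using Finset.induction_on with
  | empty => exact meroH_const 0
  | insert a t hat ih =>
    rw [Finset.sum_insert hat]
    exact meroH_add (h a (by simp)) (ih fun i hi => h i (Finset.mem_insert_of_mem hi))

theorem meroH_prod {ι : Type*} {s : Finset ι} {F : ι → ℍ → ℂ} (h : ∀ i ∈ s, MeroH (F i)) :
    MeroH (∏ i ∈ s, F i) := by
  classical
  induction s using Finset.induction_on with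
  | empty => exact meroH_const 1
  | insert a t hat ih =>
    rw [Finset.prod_insert hat]
    exact meroH_mul (h a (by simp)) (ih fun i hi => h i (Finset.mem_insert_of_mem hi))

theorem meroH_congr (hf : MeroH f) (h : EqPunct f g) : MeroH g :=
  fun z hz => (hf z hz).congr (h ⟨z, hz⟩)

theorem meroH_comp_smul (hf : MeroH f) (γ : SL(2, ℤ)) : MeroH fun τ => f (γ • τ) := by
  intro z hz
  have h1 : MeromorphicAt ((f ∘ ofComplex) ∘ Multiplier.act γ) z :=
    (hf _ (Multiplier.act_mem hz)).comp_analyticAt (Multiplier.analyticAt_act γ hz)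
  exact h1.congr ((comp_smul_ofComplex_eventuallyEq f γ hz).symm.filter_mono nhdsWithin_le_nhds)

/-- Two functions analytic at a point and equal near it agree at it. -/
theorem eq_of_eqPunct_of_analyticAt (h : EqPunct f g) {τ : ℍ}
    (hf : AnalyticAt ℂ (f ∘ ofComplex) (τ : ℂ)) (hg : AnalyticAt ℂ (g ∘ ofComplex) (τ : ℂ)) :
    f τ = g τ := by
  have h1 := hf.continuousAt.tendsto.mono_left (nhdsWithin_le_nhds (s := {(τ : ℂ)}ᶜ))
  have h2 := hg.continuousAt.tendsto.mono_left (nhdsWithin_le_nhds (s := {(τ : ℂ)}ᶜ))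
  have := tendsto_nhds_unique (h1.congr' (h τ)) h2
  simpa [Function.comp_apply, ofComplex_apply] using this

/-- Meromorphically equal functions with expansions at infinity are equal near infinity. -/
theorem eventuallyEq_atImInfty_of_eqPunct {h h' : ℕ} [NeZero h] [NeZero h']
    {x y : LaurentSeries ℂ} (hx : HasQExp h f x) (hy : HasQExp h' g y) (he : EqPunct f g) :
    f =ᶠ[atImInfty] g := by
  filter_upwards [hx.eventually_analyticAt, hy.eventually_analyticAt] with τ h1 h2
  exact eq_of_eqPunct_of_analyticAt he h1 h2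

/-- Meromorphically equal functions have the same expansion. -/
theorem qexp_eq_of_eqPunct {h : ℕ} [NeZero h] {x y : LaurentSeries ℂ} (hx : HasQExp h f x)
    (hy : HasQExp h g y) (he : EqPunct f g) : x = y :=
  (hx.congr (eventuallyEq_atImInfty_of_eqPunct hx hy he)).unique hy

/-- The expansion of a meromorphic function vanishes iff the function does. -/
theorem qexp_eq_zero_iff {h : ℕ} [NeZero h] {x : LaurentSeries ℂ} (hm : MeroH f)
    (hx : HasQExp h f x) : x = 0 ↔ EqPunct f 0 := by
  refine ⟨fun h0 => ?_, fun he => qexp_eq_of_eqPunct hx HasQExp.zero he⟩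
  subst h0
  obtain ⟨A, hA⟩ := (atImInfty_mem _).1 hx.eventually_eq_zero
  obtain ⟨τ, hτ⟩ : ∃ τ : ℍ, A < τ.im := by
    refine ⟨⟨Complex.I * (max A 0 + 1 : ℝ), ?_⟩, ?_⟩
    · simp
      positivity
    · show A < (Complex.I * (max A 0 + 1 : ℝ)).im
      simp
      linarith [le_max_left A 0]
  refine (ordH_eq_top_iff hm).1 (?_ : ordH f τ = ⊤)
  rw [ordH, meromorphicOrderAt_eq_top_iff]
  have hpos : ∀ᶠ w in 𝓝 (τ : ℂ), A < w.im :=
    Complex.continuous_im.continuousAt.eventually_const_lt hτ
  have hmem : ∀ᶠ w in 𝓝 (τ : ℂ), 0 < w.im :=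
    Complex.continuous_im.continuousAt.eventually_const_lt τ.im_pos
  refine (hpos.and hmem).filter_mono nhdsWithin_le_nhds |>.mono fun w hw => ?_
  rw [Function.comp_apply, ofComplex_apply_of_im_pos hw.2]
  exact hA ⟨w, hw.2⟩ hw.1.le

/-- The order of `qExpand d x`. -/
theorem order_qExpand (d : ℕ) [NeZero d] {x : LaurentSeries ℂ} (hx : x ≠ 0) :
    (qExpand ℂ d x).order = d * x.order := by
  have hne : qExpand ℂ d x ≠ 0 := fun h => hx (qExpand_injective (R := ℂ) d (by simpa using h))
  refine le_antisymm (HahnSeries.order_le_of_coeff_ne_zero ?_) ?_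
  · rw [qExpand_coeff_mul]
    exact mt HahnSeries.coeff_order_eq_zero.1 hx
  · have h1 := mt HahnSeries.coeff_order_eq_zero.1 hne
    by_contra hlt
    push Not at hlt
    by_cases hd : (d : ℤ) ∣ (qExpand ℂ d x).order
    · obtain ⟨m, hm⟩ := hd
      rw [hm, qExpand_coeff_mul] at h1
      have h2 := HahnSeries.order_le_of_coeff_ne_zero h1
      rw [hm] at hlt
      have := mul_le_mul_of_nonneg_left h2 (show (0 : ℤ) ≤ d by positivity)
      omega
    · exact h1 (qExpand_coeff_of_not_dvd d x hd)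

end Fermat.Agent.Places
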