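/-
Models of the function field of `Γ \ ℍ*` for a finite-index subgroup `Γ ∋ -1` of `SL(2, ℤ)`:
a field `F/ℂ` with an evaluation as meromorphic `Γ`-invariant functions, meromorphic at the cusps,
of degree `[SL(2, ℤ) : Γ]` over `ℂ(j)`.
-/
import Fermat.Agent.ModFun.Basic
import Fermat.Prelude.Def_AlgebraicCurve_DivisorClassGroup
import Mathlib.Dynamics.PeriodicPts.Defs
import Mathlib.GroupTheory.Index

set_option autoImplicit false

noncomputable section

open Filter UpperHalfPlane IntermediateField Fermat.Agent.ModFun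
open scoped Topology MatrixGroups
open ModularGroup (S T)

namespace Fermat.Agent.Places

/-- The order of the image of the stabiliser of `τ` in `PSL(2, ℤ)`, for `Γ ∋ -1`. -/
def ellPeriod (Γ : Subgroup SL(2, ℤ)) (τ : ℍ) : ℕ :=
  Nat.card (MulAction.stabilizer Γ τ) / 2

/-- The width of the cusp `g⁻¹ ∞`: the size of the `T`-orbit of the coset `g Γ`. -/
def cuspWidth (Γ : Subgroup SL(2, ℤ)) (g : SL(2, ℤ)) : ℕ :=
  Function.minimalPeriod (T • ·) (g : SL(2, ℤ) ⧸ Γ)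

/-- The cusps of `Γ`: `T`-orbits of cosets; the orbit of `g Γ` is the cusp `g⁻¹ ∞`. -/
abbrev CuspSet (Γ : Subgroup SL(2, ℤ)) : Type :=
  MulAction.orbitRel.Quotient (Subgroup.zpowers T) (SL(2, ℤ) ⧸ Γ)

/-- The points of the compact curve `Γ \ ℍ*`. -/
abbrev PointSet (Γ : Subgroup SL(2, ℤ)) : Type :=
  MulAction.orbitRel.Quotient Γ ℍ ⊕ CuspSet Γ

/-- The class in `PointSet Γ` of a point of the upper half plane. -/
abbrev pointClass (Γ : Subgroup SL(2, ℤ)) (τ : ℍ) : PointSet Γ :=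
  Sum.inl (Quotient.mk'' τ)

/-- The class in `PointSet Γ` of the cusp `g⁻¹ ∞`. -/
abbrev cuspClass (Γ : Subgroup SL(2, ℤ)) (g : SL(2, ℤ)) : PointSet Γ :=
  Sum.inr (Quotient.mk'' (g : SL(2, ℤ) ⧸ Γ))

/-- An analytic model of the function field of `Γ \ ℍ*`. -/
structure Model (Γ : Subgroup SL(2, ℤ)) (F : Type*) [Field F] [Algebra ℂ F] where
  neg_one_mem : (-1 : SL(2, ℤ)) ∈ Γ
  /-- the element `j` -/
  jF : F
  /-- evaluation of a function -/
  ev : F → ℍ → ℂ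
  mero : ∀ f, MeroH (ev f)
  smul_eq : ∀ f, ∀ γ ∈ Γ, ∀ τ : ℍ, ev f (γ • τ) = ev f τ
  qexp : ∀ (f : F) (g : SL(2, ℤ)),
    ∃ h : ℕ, 0 < h ∧ ∃ x, HasQExp h (fun τ => ev f (g • τ)) x
  ev_add : ∀ f g, EqPunct (ev (f + g)) (ev f + ev g)
  ev_mul : ∀ f g, EqPunct (ev (f * g)) (ev f * ev g)
  ev_const : ∀ c : ℂ, EqPunct (ev (algebraMap ℂ F c)) fun _ => c
  ev_jF : EqPunct (ev jF) jfun
  finrank_eq : Module.finrank ℂ⟮jF⟯ F = Γ.index

end Fermat.Agent.Places
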