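/-
Local structure at a point of `ℍ`: stabilisers, divisibility of the orders of invariant functions
by the elliptic period, and the exact order of `j - j τ` at `τ`.
-/
import Fermat.Agent.Places.Defs
import Fermat.Agent.Places.Analytic
import Mathlib.RingTheory.IntegralDomain
import Mathlib.NumberTheory.ModularForms.ProperlyDiscontinuous
import Mathlib.Analysis.SpecialFunctions.Complex.Analytic
import Mathlib.RingTheory.RootsOfUnity.Complex

set_option autoImplicit false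

noncomputable section

open Filter UpperHalfPlane Fermat.Agent.ModFun
open scoped Topology MatrixGroups

namespace Fermat.Agent.Places

/-- The automorphy factor at a fixed point, a character of the stabiliser. -/
def stabLam (τ : ℍ) : MulAction.stabilizer SL(2, ℤ) τ →* ℂˣ where
  toFun γ := Units.mk0 (Multiplier.jfac γ.1 τ) (Multiplier.jfac_ne_zero γ.1 τ.im_pos)
  map_one' := Units.ext (Multiplier.jfac_one _)
  map_mul' γ δ := by
    apply Units.ext
    have hfix : Multiplier.act δ.1 τ = (τ : ℂ) := by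
      rw [← coe_smul_eq, MulAction.mem_stabilizer_iff.1 δ.2]
    have h := Multiplier.jfac_mul γ.1 δ.1 τ.im_pos
    rw [hfix] at h
    simpa using h

theorem stabLam_injective (τ : ℍ) : Function.Injective (stabLam τ) := by
  rw [injective_iff_map_eq_one]
  intro γ hγ
  have h1 : ((γ.1 1 0 : ℤ) : ℂ) * τ + (γ.1 1 1 : ℤ) = 1 := congrArg Units.val hγ
  have him := congrArg Complex.im h1
  simp at him
  have hc : γ.1 1 0 = 0 := by
    rcases him with h | h
    · exact_mod_cast h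
    · exact absurd h τ.im_ne_zero
  rw [hc] at h1
  have hd : γ.1 1 1 = 1 := by simpa using h1
  have hfix : ((γ.1 0 0 : ℤ) : ℂ) * τ + (γ.1 0 1 : ℤ) = τ := by
    have h : Multiplier.act γ.1 τ = (τ : ℂ) := by
      rw [← coe_smul_eq, MulAction.mem_stabilizer_iff.1 γ.2]
    simpa [Multiplier.act, hc, hd] using h
  have ha : γ.1 0 0 = 1 := by
    have := Matrix.det_fin_two γ.1.1
    rw [γ.1.2, hc, hd] at this
    linarith
  have hb : γ.1 0 1 = 0 := by
    rw [ha] at hfix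
    simpa using hfix
  apply Subtype.ext
  ext i j
  fin_cases i <;> fin_cases j <;> simp [ha, hb, hc, hd]

theorem finite_returns {K : Set ℍ} (hK : IsCompact K) :
    {γ : SL(2, ℤ) | ∃ z ∈ K, γ • z ∈ K}.Finite := by
  have h := ProperlyDiscontinuousSMul.finite_disjoint_inter_image (Γ := (𝒮ℒ : Subgroup _)) hK hK
  refine Set.Finite.of_finite_image (f := fun γ : SL(2, ℤ) => (⟨γ, ⟨γ, rfl⟩⟩ : 𝒮ℒ))
    (h.subset ?_) ?_
  · rintro _ ⟨γ, ⟨z, hz, hγz⟩, rfl⟩
    exact ⟨γ • z, ⟨z, hz, rfl⟩, hγz⟩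
  · intro γ _ δ _ hγδ
    have h1 := congrArg (fun g : 𝒮ℒ => ((g : GL (Fin 2) ℝ) : Matrix (Fin 2) (Fin 2) ℝ)) hγδ
    ext i j
    have := congrFun (congrFun h1 i) j
    simpa using this

theorem exists_finite_return (τ : ℍ) :
    ∃ U ∈ 𝓝 τ, ∀ γ : SL(2, ℤ), ∀ z ∈ U, γ • z ∈ U → γ • τ = τ := by
  obtain ⟨K, hKc, hK⟩ := exists_compact_mem_nhds τ
  have hev : ∀ γ ∈ {γ : SL(2, ℤ) | ∃ z ∈ K, γ • z ∈ K},
      ∀ᶠ p : ℍ × ℍ in 𝓝 τ ×ˢ 𝓝 τ, γ • p.1 = p.2 → γ • τ = τ := by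
    intro γ _
    by_cases h : γ • τ = τ
    · exact Eventually.of_forall fun _ _ => h
    · have hγc : Continuous fun z : ℍ => γ • z := continuous_const_smul (γ : GL (Fin 2) ℝ)
      have hc : Tendsto (fun p : ℍ × ℍ => (γ • p.1, p.2)) (𝓝 τ ×ˢ 𝓝 τ) (𝓝 (γ • τ, τ)) := by
        rw [nhds_prod_eq]
        exact (hγc.tendsto τ).prodMap tendsto_id
      exact (hc.eventually (isClosed_diagonal.isOpen_compl.mem_nhds h)).mono
        fun p hp heq => absurd heq hp
  obtain ⟨V, hV, hVp⟩ := (eventually_prod_self_iff (r := fun a b : ℍ =>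
    ∀ γ ∈ {γ : SL(2, ℤ) | ∃ z ∈ K, γ • z ∈ K}, γ • a = b → γ • τ = τ)).1
    (((finite_returns hKc).eventually_all (l := 𝓝 τ ×ˢ 𝓝 τ)).2 hev)
  exact ⟨V ∩ K, inter_mem hV hK, fun γ z hz hγz =>
    hVp z hz.1 (γ • z) hγz.1 γ ⟨z, hz.2, hγz.2⟩ rfl⟩

theorem finite_stabilizer (τ : ℍ) : Finite (MulAction.stabilizer SL(2, ℤ) τ) := by
  have h : (MulAction.stabilizer SL(2, ℤ) τ : Set SL(2, ℤ)).Finite := by
    refine (finite_returns (isCompact_singleton (x := τ))).subset fun γ hγ => ⟨τ, rfl, ?_⟩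
    exact MulAction.mem_stabilizer_iff.1 hγ
  exact h.to_subtype

/-- The stabiliser of `τ` in `Γ`, as a subgroup of the stabiliser in `SL(2, ℤ)`. -/
def stabIn (Γ : Subgroup SL(2, ℤ)) (τ : ℍ) : Subgroup (MulAction.stabilizer SL(2, ℤ) τ) :=
  Γ.subgroupOf (MulAction.stabilizer SL(2, ℤ) τ)

theorem natCard_stabilizer_eq (Γ : Subgroup SL(2, ℤ)) (τ : ℍ) :
    Nat.card (MulAction.stabilizer Γ τ) = Nat.card (stabIn Γ τ) :=
  Nat.card_congr
    { toFun := fun γ => ⟨⟨γ.1.1, γ.2⟩, γ.1.2⟩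
      invFun := fun γ => ⟨⟨γ.1.1, γ.2⟩, γ.1.2⟩
      left_inv := fun _ => rfl
      right_inv := fun _ => rfl }

theorem neg_one_smul_eq (τ : ℍ) : (-1 : SL(2, ℤ)) • τ = τ := by
  rw [ModularGroup.SL_neg_smul, one_smul]

theorem two_mul_ellPeriod {Γ : Subgroup SL(2, ℤ)} (hΓ : (-1 : SL(2, ℤ)) ∈ Γ) (τ : ℍ) :
    2 * ellPeriod Γ τ = Nat.card (stabIn Γ τ) := by
  rw [ellPeriod, natCard_stabilizer_eq]
  refine Nat.mul_div_cancel' ?_
  have hne : (⟨⟨-1, neg_one_smul_eq τ⟩, hΓ⟩ : stabIn Γ τ) ≠ 1 := by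
    intro h
    have h1 := congrArg
      (fun g : stabIn Γ τ => (g.1.1 : Matrix (Fin 2) (Fin 2) ℤ) 0 0) h
    simp at h1
  have hord : orderOf (⟨⟨-1, neg_one_smul_eq τ⟩, hΓ⟩ : stabIn Γ τ) = 2 :=
    orderOf_eq_prime (by ext : 3; simp [sq]) hne
  exact hord.symm.dvd.trans (orderOf_dvd_natCard _)

theorem ellPeriod_pos {Γ : Subgroup SL(2, ℤ)} (hΓ : (-1 : SL(2, ℤ)) ∈ Γ) (τ : ℍ) :
    0 < ellPeriod Γ τ := by
  have := finite_stabilizer τ
  have h1 := two_mul_ellPeriod hΓ τ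
  have h2 : 0 < Nat.card (stabIn Γ τ) := Nat.card_pos
  omega

theorem ellPeriod_dvd_top {Γ : Subgroup SL(2, ℤ)} (hΓ : (-1 : SL(2, ℤ)) ∈ Γ) (τ : ℍ) :
    ellPeriod Γ τ ∣ ellPeriod ⊤ τ := by
  refine Nat.dvd_of_mul_dvd_mul_left two_pos ?_
  rw [two_mul_ellPeriod hΓ, two_mul_ellPeriod (Subgroup.mem_top _)]
  exact Subgroup.card_dvd_of_le fun x _ => Subgroup.mem_top (x : SL(2, ℤ))

theorem stabLam_zpow_eq_one {f : ℍ → ℂ} (hf : MeroH f) {τ : ℍ} {k : ℤ}
    (hk : ordH f τ = k) {γ : MulAction.stabilizer SL(2, ℤ) τ}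
    (hinv : EqPunct (fun z => f (γ.1 • z)) f) : stabLam τ γ ^ (2 * k) = 1 := by
  obtain ⟨u, hua, hu0, hue'⟩ := (meromorphicOrderAt_eq_int_iff (hf _ τ.im_pos)).1 hk
  have hue : (f ∘ ofComplex) =ᶠ[𝓝[≠] (τ : ℂ)] fun z => (z - τ) ^ k • u z := hue'
  have hz : (τ : ℂ) ∈ Multiplier.H := τ.im_pos
  have hfix : Multiplier.act γ.1 τ = (τ : ℂ) := by
    rw [← coe_smul_eq, MulAction.mem_stabilizer_iff.1 γ.2]
  have htend := Multiplier.tendsto_act_nhdsNE γ.1 hz
  rw [hfix] at htend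
  have h1 : (fun w => (Multiplier.act γ.1 w - τ) ^ k • u (Multiplier.act γ.1 w))
      =ᶠ[𝓝[≠] (τ : ℂ)] fun w => (w - τ) ^ k • u w := by
    have e1 := hue.comp_tendsto htend
    have e2 := (comp_smul_ofComplex_eventuallyEq f γ.1 hz).filter_mono
      (nhdsWithin_le_nhds (s := {(τ : ℂ)}ᶜ))
    exact e1.symm.trans ((e2.symm.trans (hinv τ)).trans hue)
  have h2 : (fun w => u (Multiplier.act γ.1 w)) =ᶠ[𝓝[≠] (τ : ℂ)]
      fun w => (Multiplier.jfac γ.1 w * Multiplier.jfac γ.1 τ) ^ k * u w := by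
    filter_upwards [h1, self_mem_nhdsWithin,
      nhdsWithin_le_nhds (Multiplier.isOpen_H.mem_nhds hz)] with w hw hne hwH
    have hw0 := Multiplier.jfac_ne_zero γ.1 hwH
    have ht0 := Multiplier.jfac_ne_zero γ.1 hz
    have hd : Multiplier.act γ.1 w - τ =
        (w - τ) / (Multiplier.jfac γ.1 w * Multiplier.jfac γ.1 τ) := by
      conv_lhs => rw [← hfix]
      rw [Multiplier.act_eq_div, Multiplier.act_eq_div, div_sub_div _ _ hw0 ht0]
      congr 1
      simp only [Multiplier.jfac]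
      linear_combination (w - τ) * Multiplier.det_eq_one γ.1
    simp only [smul_eq_mul, hd, div_zpow] at hw
    have hne' : (w - τ) ^ k ≠ 0 := zpow_ne_zero _ (sub_ne_zero.2 hne)
    have hden : (Multiplier.jfac γ.1 w * Multiplier.jfac γ.1 τ) ^ k ≠ 0 :=
      zpow_ne_zero _ (mul_ne_zero hw0 ht0)
    field_simp at hw
    linear_combination hw
  have hact : ContinuousAt (Multiplier.act γ.1) τ :=
    (Multiplier.analyticAt_act γ.1 hz).continuousAt
  have l1 : Tendsto (fun w => u (Multiplier.act γ.1 w)) (𝓝 (τ : ℂ)) (𝓝 (u τ)) := by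
    have := (ContinuousAt.comp (x := (τ : ℂ)) (by rw [hfix]; exact hua.continuousAt) hact).tendsto
    simpa [Function.comp_def, hfix] using this
  have hjc : ContinuousAt (fun w => Multiplier.jfac γ.1 w * Multiplier.jfac γ.1 τ) τ := by
    unfold Multiplier.jfac
    fun_prop
  have l2 := ((hjc.zpow₀ k (Or.inl (mul_ne_zero (Multiplier.jfac_ne_zero γ.1 hz)
    (Multiplier.jfac_ne_zero γ.1 hz)))).mul hua.continuousAt).tendsto
  have hlim := tendsto_nhds_unique
    ((l1.mono_left (nhdsWithin_le_nhds (s := {(τ : ℂ)}ᶜ))).congr' h2)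
    (l2.mono_left nhdsWithin_le_nhds)
  apply Units.ext
  rw [Units.val_zpow_eq_zpow_val, Units.val_one]
  show Multiplier.jfac γ.1 τ ^ (2 * k) = 1
  have hself : Multiplier.jfac γ.1 τ * Multiplier.jfac γ.1 τ = Multiplier.jfac γ.1 τ ^ (2 : ℤ) :=
    (zpow_two _).symm
  simp only [Pi.mul_apply, hself, ← zpow_mul] at hlim
  exact (mul_eq_right₀ hu0).1 hlim.symm

/-- Orders of invariant functions are divisible by the elliptic period. -/
theorem ellPeriod_dvd_ordH {Γ : Subgroup SL(2, ℤ)} (hΓ : (-1 : SL(2, ℤ)) ∈ Γ) {f : ℍ → ℂ}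
    (hf : MeroH f) (hinv : ∀ γ ∈ Γ, ∀ z : ℍ, f (γ • z) = f z) {τ : ℍ} {k : ℤ}
    (hk : ordH f τ = k) : (ellPeriod Γ τ : ℤ) ∣ k := by
  have := finite_stabilizer τ
  set G : Subgroup ℂˣ := (stabIn Γ τ).map (stabLam τ) with hG
  have hcard : Nat.card G = Nat.card (stabIn Γ τ) :=
    Subgroup.card_map_of_injective (stabLam_injective τ)
  have hfin : Finite G := Nat.finite_of_card_ne_zero (hcard ▸ Nat.card_pos.ne')
  obtain ⟨g, hg⟩ := IsCyclic.exists_ofOrder_eq_natCard (α := G)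
  obtain ⟨γ, hγ, hγg⟩ := g.2
  have h1 : (g : ℂˣ) ^ (2 * k) = 1 := by
    rw [← hγg]
    exact stabLam_zpow_eq_one hf hk (eqPunct_of_eq (funext fun z => hinv _ hγ z))
  have h2 := orderOf_dvd_iff_zpow_eq_one.2 h1
  rw [Subgroup.orderOf_coe, hg, hcard, ← two_mul_ellPeriod hΓ, Nat.cast_mul] at h2
  exact (mul_dvd_mul_iff_left (two_ne_zero' ℤ)).1 (by exact_mod_cast h2)

theorem exists_nth_root_chart {f : ℂ → ℂ} {z₀ : ℂ} {m : ℕ} (hm : 0 < m) {u : ℂ → ℂ}
    (hua : AnalyticAt ℂ u z₀) (hu0 : u z₀ ≠ 0)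
    (hfu : ∀ᶠ z in 𝓝 z₀, f z = (z - z₀) ^ m * u z) :
    ∃ h : ℂ → ℂ, h z₀ = 0 ∧ HasStrictDerivAt h (deriv h z₀) z₀ ∧ deriv h z₀ ≠ 0 ∧
      ∀ᶠ z in 𝓝 z₀, f z = h z ^ m := by
  obtain ⟨c, hc⟩ := IsAlgClosed.exists_pow_nat_eq (u z₀) hm
  have hc0 : c ≠ 0 := fun h => hu0 (by rw [← hc, h, zero_pow hm.ne'])
  set r : ℂ → ℂ := fun z => c * Complex.exp (Complex.log (u z / u z₀) / m) with hr
  have hra : AnalyticAt ℂ r z₀ :=
    analyticAt_const.mul (((hua.div_const).clog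
      (by rw [div_self hu0]; simp [Complex.slitPlane])).div_const).cexp
  have hr0 : r z₀ ≠ 0 := mul_ne_zero hc0 (Complex.exp_ne_zero _)
  have hrpow : ∀ᶠ z in 𝓝 z₀, r z ^ m = u z := by
    filter_upwards [hua.continuousAt.eventually_ne hu0] with z hz
    simp only [hr]
    rw [mul_pow, hc, ← Complex.exp_nat_mul, mul_div_cancel₀ _ (Nat.cast_ne_zero.2 hm.ne'),
      Complex.exp_log (div_ne_zero hz hu0), mul_div_cancel₀ _ hu0]
  set h : ℂ → ℂ := fun z => (z - z₀) * r z with hh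
  have hha : AnalyticAt ℂ h z₀ := (analyticAt_id.sub analyticAt_const).mul hra
  have hd : deriv h z₀ = r z₀ := by
    have h1 : HasDerivAt (fun z => z - z₀) 1 z₀ := (hasDerivAt_id z₀).sub_const z₀
    have h2 := (h1.mul hra.differentiableAt.hasDerivAt).deriv
    rw [show h = (fun z => z - z₀) * r from rfl]
    simpa using h2
  refine ⟨h, by simp [hh], hha.hasStrictDerivAt, by rwa [hd], ?_⟩
  filter_upwards [hrpow, hfu] with z hz hz'
  rw [hz', ← hz]
  simp only [hh, mul_pow]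

/-- Near `τ`, every value of an invariant local coordinate `f` of order `m` is taken at `m`
points, so `m` is at most the elliptic period when `f` separates orbits. -/
theorem order_le_ellPeriod_top {τ : ℍ} {m : ℕ} (hm : 0 < m) {u : ℂ → ℂ}
    (hua : AnalyticAt ℂ u τ) (hu0 : u τ ≠ 0)
    (hfu : ∀ᶠ z in 𝓝 (τ : ℂ),
      jfun (ofComplex z) - jfun τ = (z - τ) ^ m * u z) :
    m ≤ ellPeriod ⊤ τ := by
  classical
  obtain ⟨h, hh0, hhd, hd0, hhp⟩ := exists_nth_root_chart hm hua hu0 hfu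
  obtain ⟨U, hU, hret⟩ := exists_finite_return τ
  have hUc : ∀ᶠ z in 𝓝 (τ : ℂ), 0 < z.im ∧ ofComplex z ∈ U := by
    refine (Complex.continuous_im.continuousAt.eventually_const_lt τ.im_pos).and ?_
    have hcont : Tendsto ofComplex (𝓝 (τ : ℂ)) (𝓝 τ) := by
      rw [isOpenEmbedding_coe.isEmbedding.tendsto_nhds_iff]
      refine (tendsto_id (α := ℂ)).congr' ?_
      filter_upwards [(Complex.continuous_im.continuousAt.eventually_const_lt τ.im_pos :
        ∀ᶠ z in 𝓝 (τ : ℂ), 0 < z.im)] with z hz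
      simp [ofComplex_apply_of_im_pos hz]
    exact hcont.eventually hU
  obtain ⟨W, hW, hWp⟩ := (hhp.and hUc).exists_mem
  have himg : h '' W ∈ 𝓝 (0 : ℂ) := by
    rw [← hh0, ← hhd.map_nhds_eq hd0]
    exact image_mem_map hW
  obtain ⟨ε, hε, hball⟩ := Metric.mem_nhds_iff.1 himg
  set ζ : ℂ := Complex.exp (2 * Real.pi * Complex.I / m) with hζ
  have hprim : IsPrimitiveRoot ζ m := Complex.isPrimitiveRoot_exp m hm.ne'
  set s : ℂ := ((ε / 2 : ℝ) : ℂ) with hs
  have hs0 : s ≠ 0 := by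
    simp [hs, hε.ne']
  have hmem : ∀ i : Fin m, s * ζ ^ (i : ℕ) ∈ Metric.ball (0 : ℂ) ε := by
    intro i
    rw [mem_ball_zero_iff, norm_mul, norm_pow,
      Complex.norm_eq_one_of_pow_eq_one hprim.pow_eq_one hm.ne', one_pow, mul_one, hs,
      Complex.norm_real, Real.norm_eq_abs, abs_of_pos (half_pos hε)]
    linarith
  choose z hzW hzh using fun i => hball (hmem i)
  set w : Fin m → ℍ := fun i => ofComplex (z i) with hw
  have hzinj : Function.Injective z := by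
    intro i j hij
    have h1 : s * ζ ^ (i : ℕ) = s * ζ ^ (j : ℕ) := by rw [← hzh i, ← hzh j, hij]
    exact Fin.ext (hprim.pow_inj i.2 j.2 (mul_left_cancel₀ hs0 h1))
  have hwinj : Function.Injective w := by
    intro i j hij
    apply hzinj
    have h1 := congrArg (fun p : ℍ => (p : ℂ)) hij
    simpa [hw, ofComplex_apply_of_im_pos (hWp _ (hzW i)).2.1,
      ofComplex_apply_of_im_pos (hWp _ (hzW j)).2.1] using h1
  have hjw : ∀ i, jfun (w i) = jfun τ + s ^ m := by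
    intro i
    have h1 := (hWp _ (hzW i)).1
    rw [hzh i, mul_pow, ← pow_mul, mul_comm (i : ℕ) m, pow_mul, hprim.pow_eq_one, one_pow,
      mul_one] at h1
    linear_combination h1
  set i0 : Fin m := ⟨0, hm⟩
  have hγ : ∀ i, ∃ γ : MulAction.stabilizer SL(2, ℤ) τ, γ.1 • w i0 = w i := by
    intro i
    obtain ⟨γ, hγ⟩ := jfun_eq_iff.1 ((hjw i0).trans (hjw i).symm)
    exact ⟨⟨γ, hret γ _ (hWp _ (hzW i0)).2.2 (hγ ▸ (hWp _ (hzW i)).2.2)⟩, hγ⟩
  choose γ hγ using hγ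
  have := finite_stabilizer τ
  have hinj2 : Function.Injective (fun p : Fin m × Bool =>
      if p.2 then γ p.1 else ⟨-1, neg_one_smul_eq τ⟩ * γ p.1) := by
    rintro ⟨i, a⟩ ⟨j, b⟩ hij
    have e : ∀ (i : Fin m) (a : Bool),
        (if a then γ i else ⟨-1, neg_one_smul_eq τ⟩ * γ i).1 • w i0 = w i := by
      intro i a
      cases a
      · show ((-1 : SL(2, ℤ)) * (γ i).1) • w i0 = w i
        rw [mul_smul, hγ, neg_one_smul_eq]
      · exact hγ i
    have h1 : w i = w j := by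
      rw [← e i a, ← e j b]
      exact congrArg (fun g : MulAction.stabilizer SL(2, ℤ) τ => g.1 • w i0) hij
    obtain rfl := hwinj h1
    refine Prod.ext rfl ?_
    have key : ∀ g : MulAction.stabilizer SL(2, ℤ) τ, g ≠ ⟨-1, neg_one_smul_eq τ⟩ * g := by
      intro g hg
      have h2 := congrArg (fun x : MulAction.stabilizer SL(2, ℤ) τ => x * g⁻¹) hg
      simp only [mul_inv_cancel, mul_inv_cancel_right] at h2
      have h3 := congrArg
        (fun x : MulAction.stabilizer SL(2, ℤ) τ => (x.1 : Matrix (Fin 2) (Fin 2) ℤ) 0 0) h2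
      simp at h3
    cases a <;> cases b <;> simp only [Bool.false_eq_true, ↓reduceIte] at hij ⊢
    · exact absurd hij.symm (key _)
    · exact absurd hij (key _)
  have hle := Nat.card_le_card_of_injective _ hinj2
  rw [Nat.card_prod, Nat.card_fin, Nat.card_eq_fintype_card (α := Bool), Fintype.card_bool] at hle
  have hcard : Nat.card (MulAction.stabilizer SL(2, ℤ) τ) = Nat.card (stabIn ⊤ τ) := by
    rw [stabIn, Subgroup.top_subgroupOf, Subgroup.card_top]
  rw [hcard, ← two_mul_ellPeriod (Subgroup.mem_top _)] at hle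
  omega

/-- The exact order of `j - j τ` at `τ`. -/
theorem ordH_jfun_sub (τ : ℍ) :
    ordH (jfun - fun _ => jfun τ) τ = (ellPeriod ⊤ τ : ℕ) := by
  have hj : AnalyticAt ℂ (jfun ∘ ofComplex) (τ : ℂ) :=
    (UpperHalfPlane.mdifferentiable_iff.1 mdifferentiable_jfun).analyticAt
      (isOpen_upperHalfPlaneSet.mem_nhds τ.im_pos)
  have ha : AnalyticAt ℂ ((jfun - fun _ => jfun τ) ∘ ofComplex) (τ : ℂ) :=
    hj.sub analyticAt_const
  have hm : MeroH (jfun - fun _ => jfun τ) :=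
    meroH_sub (meroH_of_mdifferentiable mdifferentiable_jfun) (meroH_const _)
  have hne : ordH (jfun - fun _ => jfun τ) τ ≠ ⊤ := by
    intro h
    have h1 : EqPunct jfun fun _ => jfun τ := by
      have := eqPunct_add ((ordH_eq_top_iff hm).1 h) (EqPunct.refl fun _ : ℍ => jfun τ)
      simpa using this
    have h2 := congrArg (fun x => HahnSeries.coeff x (-1))
      (qexp_eq_of_eqPunct hasQExp_jfun (HasQExp.const _) h1)
    simp [ModularCurve.coeff_jqModC_neg_one] at h2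
  rw [ordH, ha.meromorphicOrderAt_eq] at hne
  have hne' : analyticOrderAt ((jfun - fun _ => jfun τ) ∘ ofComplex) (τ : ℂ) ≠ ⊤ :=
    fun h => hne (by rw [h]; rfl)
  obtain ⟨m, hmeq⟩ := ENat.ne_top_iff_exists.1 hne'
  obtain ⟨u, hua, hu0, hfu⟩ := (ha.analyticOrderAt_eq_natCast).1 hmeq.symm
  have hord : ordH (jfun - fun _ => jfun τ) τ = ((m : ℤ) : WithTop ℤ) := by
    rw [ordH, ha.meromorphicOrderAt_eq, ← hmeq]
    rfl
  have hm0 : 0 < m := by
    rcases Nat.eq_zero_or_pos m with rfl | h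
    · have := hfu.self_of_nhds
      simp [ofComplex_apply] at this
      exact absurd this.symm (by simpa using hu0)
    · exact h
  have hle := order_le_ellPeriod_top hm0 hua hu0 (by simpa [Function.comp_def] using hfu)
  have hdvd := ellPeriod_dvd_ordH (Subgroup.mem_top _) hm
    (fun γ _ z => congrArg (fun x => x - jfun τ) (jfun_smul γ z)) hord
  have : ellPeriod ⊤ τ ≤ m := Nat.le_of_dvd hm0 (by exact_mod_cast hdvd)
  rw [hord, le_antisymm hle this]
  rfl

end Fermat.Agent.Places
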