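/-
The elliptic points of `SL(2, ℤ)`: stabilisers of `I` and `ρ`, values of `j`, the elliptic period.
-/
import Fermat.Agent.Places.Local
import Mathlib.NumberTheory.Modular

set_option autoImplicit false

noncomputable section

open UpperHalfPlane Fermat.Agent.ModFun
open scoped MatrixGroups Modular
open ModularGroup (S T)

namespace Fermat.Agent.Places

theorem stabilizer_I_eq : MulAction.stabilizer SL(2, ℤ) UpperHalfPlane.I = Subgroup.zpowers S := by
  refine le_antisymm (fun g hg => ?_) ((Subgroup.zpowers_le).2 ?_)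
  · have := ModularGroup.stabilizer_I.1 (MulAction.mem_stabilizer_iff.1 hg)
    simp only [Finset.mem_insert, Finset.mem_singleton] at this
    rcases this with rfl | rfl | rfl | rfl
    · exact one_mem _
    · exact ⟨2, show S ^ (2 : ℤ) = -1 by decide⟩
    · exact Subgroup.mem_zpowers _
    · exact ⟨3, show S ^ (3 : ℤ) = -S by decide⟩
  · exact MulAction.mem_stabilizer_iff.2 (ModularGroup.stabilizer_I.2 (by simp))

theorem stabilizer_rho_eq :
    MulAction.stabilizer SL(2, ℤ) UpperHalfPlane.ρ = Subgroup.zpowers (S * T) := by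
  refine le_antisymm (fun g hg => ?_) ((Subgroup.zpowers_le).2 ?_)
  · have := ModularGroup.stabilizer_ρ.1 (MulAction.mem_stabilizer_iff.1 hg)
    simp only [Finset.mem_insert, Finset.mem_singleton] at this
    rcases this with rfl | rfl | rfl | rfl | rfl | rfl
    · exact one_mem _
    · exact ⟨3, show (S * T) ^ (3 : ℤ) = -1 by decide⟩
    · exact Subgroup.mem_zpowers _
    · exact ⟨4, show (S * T) ^ (4 : ℤ) = -(S * T) by decide⟩
    · exact ⟨2, show (S * T) ^ (2 : ℤ) = T⁻¹ * S by decide⟩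
    · exact ⟨5, show (S * T) ^ (5 : ℤ) = -(T⁻¹ * S) by decide⟩
  · exact MulAction.mem_stabilizer_iff.2 (ModularGroup.stabilizer_ρ.2 (by simp))

theorem two_mul_ellPeriod_top (τ : ℍ) :
    2 * ellPeriod ⊤ τ = Nat.card (MulAction.stabilizer SL(2, ℤ) τ) := by
  rw [two_mul_ellPeriod (Subgroup.mem_top _), stabIn, Subgroup.top_subgroupOf, Subgroup.card_top]

theorem ellPeriod_top_I : ellPeriod ⊤ UpperHalfPlane.I = 2 := by
  have h := two_mul_ellPeriod_top UpperHalfPlane.I
  have h4 : orderOf S = 4 := by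
    refine orderOf_eq_prime_pow (p := 2) (n := 1) ?_ ?_
    · decide
    · decide
  rw [stabilizer_I_eq, Nat.card_zpowers, h4] at h
  omega

theorem ellPeriod_top_rho : ellPeriod ⊤ UpperHalfPlane.ρ = 3 := by
  have h := two_mul_ellPeriod_top UpperHalfPlane.ρ
  have h6 : orderOf (S * T) = 6 := by
    rw [orderOf_eq_iff (by norm_num)]
    refine ⟨by decide, fun m hm hm0 => ?_⟩
    interval_cases m <;> decide
  rw [stabilizer_rho_eq, Nat.card_zpowers, h6] at h
  omega

theorem denom_zpow_of_fixed {k : ℤ} (f : ModularForm 𝒮ℒ k) {γ : SL(2, ℤ)} {z : ℍ}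
    (hz : γ • z = z) :
    f z = ((γ 1 0 : ℂ) * z + (γ 1 1 : ℂ)) ^ k * f z := by
  have h := SlashInvariantForm.slash_action_eqn'' f (γ := (γ : GL (Fin 2) ℝ)) (MonoidHom.mem_range.2 ⟨γ, rfl⟩) z
  rw [ModularGroup.denom_apply] at h
  have hz' : (γ : GL (Fin 2) ℝ) • z = z := hz
  rw [hz'] at h
  exact h

theorem jfun_I : jfun UpperHalfPlane.I = 1728 := by
  have h := denom_zpow_of_fixed ModularForm.E₆ (γ := S) (z := UpperHalfPlane.I)
    (ModularGroup.stabilizer_I.2 (by simp))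
  simp [ModularGroup.S, zpow_ofNat, show Complex.I ^ 6 = -1 by
    rw [show (6 : ℕ) = 4 + 2 by rfl, pow_add, Complex.I_pow_four, Complex.I_sq, one_mul]] at h
  have h0 : ModularForm.E₆ UpperHalfPlane.I = 0 := by linear_combination h / 2
  have := jfun_sub_1728 UpperHalfPlane.I
  rw [h0] at this
  simpa [sub_eq_zero] using this

theorem jfun_rho : jfun UpperHalfPlane.ρ = 0 := by
  have h := denom_zpow_of_fixed ModularForm.E₄ (γ := S * T) (z := UpperHalfPlane.ρ)
    (ModularGroup.stabilizer_ρ.2 (by simp))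
  have h10 : (S * T : SL(2, ℤ)) 1 0 = 1 := by decide
  have h11 : (S * T : SL(2, ℤ)) 1 1 = 1 := by decide
  rw [h10, h11] at h
  have hρ := UpperHalfPlane.ρ_sq
  simp only [Int.cast_one, one_mul, zpow_ofNat] at h
  have hne : ((UpperHalfPlane.ρ : ℂ) + 1) ^ 4 ≠ 1 := by
    have h4 : ((UpperHalfPlane.ρ : ℂ) + 1) ^ 4 = -(UpperHalfPlane.ρ : ℂ) - 1 := by
      linear_combination ((UpperHalfPlane.ρ : ℂ) ^ 2 + 3 * (UpperHalfPlane.ρ : ℂ) + 2) * hρ
    rw [h4]
    intro h1
    have := congrArg Complex.im h1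
    simp at this
    exact (UpperHalfPlane.ρ).im_ne_zero this
  have h0 : ModularForm.E₄ UpperHalfPlane.ρ = 0 := by
    by_contra hn
    exact hne (mul_eq_right₀ hn |>.1 h.symm)
  simp [jfun, h0]

theorem ellPeriod_smul {Γ : Subgroup SL(2, ℤ)} {γ : SL(2, ℤ)} (hγ : γ ∈ Γ) (τ : ℍ) :
    ellPeriod Γ (γ • τ) = ellPeriod Γ τ := by
  have h := MulAction.stabilizerEquivStabilizer (G := Γ) (a := τ) (b := γ • τ)
    (g := (⟨γ, hγ⟩ : Γ)) rfl
  rw [ellPeriod, ellPeriod, Nat.card_congr h.toEquiv]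

theorem jfun_eq_of_smul {τ τ' : ℍ} (γ : SL(2, ℤ)) (h : γ • τ = τ') : jfun τ = jfun τ' := by
  rw [← h, jfun_smul]

theorem ellPeriod_top_eq (τ : ℍ) :
    ellPeriod ⊤ τ = if jfun τ = 0 then 3 else if jfun τ = 1728 then 2 else 1 := by
  obtain ⟨g, hg⟩ := ModularGroup.exists_smul_mem_fd τ
  have hp : ellPeriod ⊤ τ = ellPeriod ⊤ (g • τ) := (ellPeriod_smul (Subgroup.mem_top g) τ).symm
  rw [hp, ← jfun_smul g τ]
  by_cases hI : g • τ = UpperHalfPlane.I
  · rw [hI, ellPeriod_top_I, jfun_I]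
    norm_num
  by_cases hr : g • τ = UpperHalfPlane.ρ
  · rw [hr, ellPeriod_top_rho, jfun_rho, if_pos rfl]
  by_cases hr' : g • τ = (1 : ℝ) +ᵥ UpperHalfPlane.ρ
  · rw [hr', ← modular_T_smul, jfun_smul, ellPeriod_smul (Subgroup.mem_top T), ellPeriod_top_rho,
      jfun_rho, if_pos rfl]
  have h1 : ∀ x : MulAction.stabilizer SL(2, ℤ) (g • τ), x.1 = 1 ∨ x.1 = -1 := fun x =>
    ModularGroup.stabilizer_of_ne hg (MulAction.mem_stabilizer_iff.1 x.2) hI hr hr'
  have hle : Nat.card (MulAction.stabilizer SL(2, ℤ) (g • τ)) ≤ 2 := by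
    have h2 : Function.Injective fun x : MulAction.stabilizer SL(2, ℤ) (g • τ) =>
        decide (x.1 = 1) := by
      intro x y hxy
      apply Subtype.ext
      rcases h1 x with hx | hx <;> rcases h1 y with hy | hy <;>
        simp_all [show (-1 : SL(2, ℤ)) ≠ 1 by decide]
    refine (Nat.card_le_card_of_injective _ h2).trans ?_
    simp
  rw [← two_mul_ellPeriod_top] at hle
  have hpos := ellPeriod_pos (Γ := ⊤) (Subgroup.mem_top _) (g • τ)
  have hne0 : jfun (g • τ) ≠ 0 := by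
    intro h0
    obtain ⟨γ, hγ⟩ := jfun_eq_iff.1 (h0.trans jfun_rho.symm)
    have := ellPeriod_smul (Subgroup.mem_top γ) (g • τ)
    rw [hγ, ellPeriod_top_rho] at this
    omega
  have hne1 : jfun (g • τ) ≠ 1728 := by
    intro h0
    obtain ⟨γ, hγ⟩ := jfun_eq_iff.1 (h0.trans jfun_I.symm)
    have := ellPeriod_smul (Subgroup.mem_top γ) (g • τ)
    rw [hγ, ellPeriod_top_I] at this
    omega
  rw [if_neg hne0, if_neg hne1]
  omega

end Fermat.Agent.Places
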