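/-
Integer valued valuations of a function field: the place they define and the index by which
they are a multiple of the normalised order.
-/
import Fermat.Agent.Curve.BasicPlace

set_option autoImplicit false

noncomputable section

namespace Fermat.Agent.Places

open AlgebraicCurve Fermat.Agent.Curve

/-- A nontrivial integer valued valuation of `F`, trivial on the constants `K`. The value at `0`
is irrelevant. -/
structure IntVal (K F : Type*) [Field K] [Field F] [Algebra K F] where
  w : F → ℤ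
  map_mul : ∀ f g : F, f ≠ 0 → g ≠ 0 → w (f * g) = w f + w g
  min_le_add : ∀ f g : F, f ≠ 0 → g ≠ 0 → f + g ≠ 0 → min (w f) (w g) ≤ w (f + g)
  map_const : ∀ c : K, c ≠ 0 → w (algebraMap K F c) = 0
  nontrivial : ∃ f : F, f ≠ 0 ∧ w f ≠ 0

namespace IntVal

variable {K F : Type*} [Field K] [Field F] [Algebra K F] (W : IntVal K F)

theorem map_one : W.w 1 = 0 := by
  have := W.map_mul 1 1 one_ne_zero one_ne_zero
  rw [mul_one] at this
  omega

theorem map_neg_one : W.w (-1) = 0 := by
  have := W.map_mul (-1) (-1) (neg_ne_zero.2 one_ne_zero) (neg_ne_zero.2 one_ne_zero)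
  rw [neg_mul_neg, mul_one, W.map_one] at this
  omega

theorem map_neg (f : F) : W.w (-f) = W.w f := by
  rcases eq_or_ne f 0 with rfl | hf
  · rw [neg_zero]
  · rw [show -f = -1 * f by ring, W.map_mul _ _ (neg_ne_zero.2 one_ne_zero) hf, W.map_neg_one,
      zero_add]

theorem map_inv {f : F} (hf : f ≠ 0) : W.w f⁻¹ = -W.w f := by
  have := W.map_mul f f⁻¹ hf (inv_ne_zero hf)
  rw [mul_inv_cancel₀ hf, W.map_one] at this
  omega

theorem map_div {f g : F} (hf : f ≠ 0) (hg : g ≠ 0) : W.w (f / g) = W.w f - W.w g := by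
  rw [div_eq_mul_inv, W.map_mul _ _ hf (inv_ne_zero hg), W.map_inv hg]
  ring

theorem map_pow {f : F} (hf : f ≠ 0) (n : ℕ) : W.w (f ^ n) = n * W.w f := by
  induction n with
  | zero => simp [W.map_one]
  | succ n ih =>
    rw [pow_succ, W.map_mul _ _ (pow_ne_zero _ hf) hf, ih]
    push_cast
    ring

theorem map_zpow {f : F} (hf : f ≠ 0) (n : ℤ) : W.w (f ^ n) = n * W.w f := by
  cases n with
  | ofNat m => simp [W.map_pow hf]
  | negSucc m =>
    rw [zpow_negSucc, W.map_inv (pow_ne_zero _ hf), W.map_pow hf, Int.negSucc_eq]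
    push_cast
    ring

theorem exists_neg : ∃ f : F, f ≠ 0 ∧ W.w f < 0 := by
  obtain ⟨f, hf, h⟩ := W.nontrivial
  rcases lt_or_gt_of_ne h with h | h
  · exact ⟨f, hf, h⟩
  · exact ⟨f⁻¹, inv_ne_zero hf, by rw [W.map_inv hf]; omega⟩

/-- The elements of non-negative value. -/
def ring : ValuationSubring F where
  carrier := {f | f = 0 ∨ 0 ≤ W.w f}
  one_mem' := Or.inr W.map_one.ge
  zero_mem' := Or.inl rfl
  mul_mem' := by
    rintro f g hf hg
    rcases eq_or_ne f 0 with rfl | hf0
    · exact Or.inl (zero_mul _)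
    rcases eq_or_ne g 0 with rfl | hg0
    · exact Or.inl (mul_zero _)
    have h1 := hf.resolve_left hf0
    have h2 := hg.resolve_left hg0
    exact Or.inr (by rw [W.map_mul f g hf0 hg0]; omega)
  add_mem' := by
    rintro f g hf hg
    rcases eq_or_ne f 0 with rfl | hf0
    · rwa [zero_add]
    rcases eq_or_ne g 0 with rfl | hg0
    · rwa [add_zero]
    rcases eq_or_ne (f + g) 0 with h | h
    · exact Or.inl h
    · exact Or.inr ((le_min (hf.resolve_left hf0) (hg.resolve_left hg0)).trans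
        (W.min_le_add f g hf0 hg0 h))
  neg_mem' := by
    rintro f hf
    rcases hf with rfl | hf
    · exact Or.inl neg_zero
    · exact Or.inr (by rwa [W.map_neg])
  mem_or_inv_mem' := by
    intro f
    rcases eq_or_ne f 0 with rfl | hf
    · exact Or.inl (Or.inl rfl)
    rcases le_total 0 (W.w f) with h | h
    · exact Or.inl (Or.inr h)
    · exact Or.inr (Or.inr (by rw [W.map_inv hf]; omega))

theorem mem_ring_iff {f : F} (hf : f ≠ 0) : f ∈ W.ring ↔ 0 ≤ W.w f :=
  ⟨fun h => h.resolve_left hf, Or.inr⟩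

theorem isPrincipalIdealRing_ring : IsPrincipalIdealRing W.ring := by
  classical
  refine ⟨fun I => ?_⟩
  rcases eq_or_ne I ⊥ with rfl | hI
  · infer_instance
  · obtain ⟨a0, ha0, ha0ne⟩ := Submodule.exists_mem_ne_zero_of_ne_bot hI
    have hex : ∃ n : ℕ, ∃ a ∈ I, (a : F) ≠ 0 ∧ (W.w (a : F)).toNat = n :=
      ⟨_, a0, ha0, fun h => ha0ne (Subtype.ext h), rfl⟩
    obtain ⟨a, haI, hane, han⟩ := Nat.find_spec hex
    refine ⟨⟨a, le_antisymm (fun b hb => ?_) ((Submodule.span_singleton_le_iff_mem a I).2 haI)⟩⟩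
    rcases eq_or_ne (b : F) 0 with hb0 | hb0
    · have : b = 0 := Subtype.ext hb0
      rw [this]; exact Submodule.zero_mem _
    have hmin : (W.w (a : F)).toNat ≤ (W.w (b : F)).toNat :=
      han ▸ Nat.find_min' hex ⟨b, hb, hb0, rfl⟩
    have ha : 0 ≤ W.w (a : F) := (W.mem_ring_iff hane).1 a.2
    have hbnn : 0 ≤ W.w (b : F) := (W.mem_ring_iff hb0).1 b.2
    have hq : (b : F) / (a : F) ∈ W.ring :=
      (W.mem_ring_iff (div_ne_zero hb0 hane)).2 (by rw [W.map_div hb0 hane]; omega)
    refine Submodule.mem_span_singleton.2 ⟨⟨_, hq⟩, Subtype.ext ?_⟩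
    show (b : F) / (a : F) * (a : F) = b
    exact div_mul_cancel₀ _ hane

/-- The place attached to a nontrivial integer valued valuation. -/
def place : Place K F where
  toValuationSubring := W.ring
  algebraMap_mem' c := by
    rcases eq_or_ne c 0 with rfl | hc
    · exact Or.inl (map_zero _)
    · exact Or.inr (W.map_const c hc).ge
  ne_top' h := by
    obtain ⟨f, hf, hneg⟩ := W.exists_neg
    have hm : f ∈ W.ring := by rw [h]; exact ValuationSubring.mem_top f
    have := (W.mem_ring_iff hf).1 hm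
    omega
  isPrincipalIdealRing' := W.isPrincipalIdealRing_ring

theorem place_ord_nonneg_iff {f : F} (hf : f ≠ 0) : 0 ≤ W.place.ord f ↔ 0 ≤ W.w f :=
  (mem_iff_ord_nonneg W.place).symm.trans (W.mem_ring_iff hf)

theorem exists_index : ∃ k : ℕ, 0 < k ∧ ∀ f : F, f ≠ 0 → W.w f = k * W.place.ord f := by
  obtain ⟨π, hπ0, hπ⟩ := exists_ord_eq W.place 1
  have hπnn : 0 ≤ W.w π := (W.place_ord_nonneg_iff hπ0).1 (by omega)
  have key : ∀ f : F, f ≠ 0 → W.w f = W.w π * W.place.ord f := by
    intro f hf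
    have hz : π ^ (W.place.ord f) ≠ 0 := zpow_ne_zero _ hπ0
    have hu0 : f / π ^ (W.place.ord f) ≠ 0 := div_ne_zero hf hz
    have hu : W.place.ord (f / π ^ (W.place.ord f)) = 0 := by
      rw [ord_div _ hf hz, Place.ord_zpow, hπ, mul_one, sub_self]
    have h1 := (W.place_ord_nonneg_iff hu0).1 hu.ge
    have h2 : 0 ≤ W.w (f / π ^ (W.place.ord f))⁻¹ :=
      (W.place_ord_nonneg_iff (inv_ne_zero hu0)).1 (by rw [Place.ord_inv]; omega)
    rw [W.map_inv hu0] at h2
    have h3 : W.w (f / π ^ (W.place.ord f)) = 0 := by omega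
    rw [W.map_div hf hz, W.map_zpow hπ0] at h3
    linarith
  refine ⟨(W.w π).toNat, ?_, fun f hf => by rw [Int.toNat_of_nonneg hπnn]; exact key f hf⟩
  obtain ⟨f, hf, hne⟩ := W.nontrivial
  rw [key f hf] at hne
  have := left_ne_zero_of_mul hne
  omega

/-- The index of the valuation over the normalised order of its place. -/
def index : ℕ := W.exists_index.choose

theorem index_pos : 0 < W.index := W.exists_index.choose_spec.1

theorem w_eq {f : F} (hf : f ≠ 0) : W.w f = W.index * W.place.ord f :=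
  W.exists_index.choose_spec.2 f hf

theorem dvd_index {c : ℕ} (h : ∀ f : F, f ≠ 0 → (c : ℤ) ∣ W.w f) : c ∣ W.index := by
  obtain ⟨π, hπ0, hπ⟩ := exists_ord_eq W.place 1
  have := h π hπ0
  rw [W.w_eq hπ0, hπ, mul_one] at this
  exact_mod_cast this

theorem place_ord_pos {f : F} (hf : f ≠ 0) (h : 0 < W.w f) : 0 < W.place.ord f := by
  rw [W.w_eq hf] at h
  exact pos_of_mul_pos_right h (by positivity)

end IntVal

end Fermat.Agent.Places
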