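/-
Identification of the places in a fibre from a list of valuations: if the ramification indices
of the listed valuations sum to at most the degree, and functions holomorphic at all listed
valuations are integral over the local ring below, the list is exactly the fibre.
-/
import Fermat.Agent.Places.IntVal

set_option autoImplicit false

noncomputable section

namespace Fermat.Agent.Places

open AlgebraicCurve Fermat.Agent.Curve

variable {K F : Type*} [Field K] [Field F] [Algebra K F]

/-- A root of `D X ^ d + ∑ P i X ^ i` with `ord D ≤ ord (P i)` has non-negative order. -/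
theorem ord_nonneg_of_equation (v : Place K F) {f D : F} {d : ℕ} {P : Fin d → F} (hD : D ≠ 0)
    (hP : ∀ i, P i ≠ 0 → v.ord D ≤ v.ord (P i))
    (h : D * f ^ d + ∑ i, P i * f ^ (i : ℕ) = 0) : 0 ≤ v.ord f := by
  by_contra hneg
  push Not at hneg
  have hf : f ≠ 0 := fun h0 => by rw [h0, Place.ord_zero] at hneg; exact lt_irrefl _ hneg
  have hlead : D * f ^ d ≠ 0 := mul_ne_zero hD (pow_ne_zero _ hf)
  have hlead_ord : v.ord (D * f ^ d) = v.ord D + d * v.ord f := by
    rw [v.ord_mul hD (pow_ne_zero _ hf), ord_pow]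
  have hsum : ∑ i, P i * f ^ (i : ℕ) ≠ 0 := fun h0 => by
    rw [h0, add_zero] at h; exact hlead h
  have hle : v.ord (D * f ^ d) + 1 ≤ v.ord (∑ i, P i * f ^ (i : ℕ)) := by
    refine le_ord_sum v _ _ _ (fun i _ hi => ?_) hsum
    have hPi : P i ≠ 0 := left_ne_zero_of_mul hi
    rw [v.ord_mul hPi (pow_ne_zero _ hf), ord_pow, hlead_ord]
    have h1 := hP i hPi
    have h2 : ((i : ℕ) : ℤ) + 1 ≤ (d : ℤ) := by exact_mod_cast i.2
    have h3 := mul_le_mul_of_nonpos_right h2 hneg.le
    nlinarith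
  have heq : ∑ i, P i * f ^ (i : ℕ) = -(D * f ^ d) := by linear_combination h
  rw [heq, ord_neg] at hle
  omega

/-- The structure of a fibre. -/
theorem fiber_structure {ι : Type*} [Fintype ι] (W : ι → IntVal K F) (e c : ι → ℕ) {x : F}
    (hx0 : x ≠ 0) (S : Finset (Place K F)) (hS : ∀ v, v ∈ S ↔ 0 < v.ord x)
    (he : ∀ a, 0 < e a) (hc : ∀ a, 0 < c a)
    (hwx : ∀ a, (W a).w x = (e a * c a : ℕ))
    (hdvd : ∀ a, ∀ f : F, f ≠ 0 → (c a : ℤ) ∣ (W a).w f)
    (hsum : ∑ a, (e a : ℤ) ≤ ∑ v ∈ S, v.ord x)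
    (hint : ∀ f : F, f ≠ 0 → (∀ a, 0 ≤ (W a).w f) → ∀ v ∈ S, 0 ≤ v.ord f) :
    (∀ a, (W a).index = c a) ∧ Function.Injective (fun a => (W a).place) ∧
      (∀ v : Place K F, 0 < v.ord x → ∃ a, (W a).place = v) ∧
      ∀ a, (W a).place.ord x = e a := by
  classical
  set pl : ι → Place K F := fun a => (W a).place with hpl
  have hmem : ∀ a, pl a ∈ S := fun a => (hS _).2 <| (W a).place_ord_pos hx0 (by
    rw [hwx a]; exact_mod_cast Nat.mul_pos (he a) (hc a))
  have hsurj : ∀ v ∈ S, ∃ a, pl a = v := by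
    intro v hv
    by_contra hno
    push Not at hno
    obtain ⟨g, hg0, hgv, hgs⟩ := exists_ord_pos_forall_neg v (Finset.univ.image pl)
      (fun hm => by
        obtain ⟨a, -, ha⟩ := Finset.mem_image.1 hm
        exact hno a ha)
    have h := hint g⁻¹ (inv_ne_zero hg0) (fun a => by
      rw [(W a).w_eq (inv_ne_zero hg0), Place.ord_inv]
      have := hgs (pl a) (Finset.mem_image_of_mem _ (Finset.mem_univ a))
      have hle : 0 ≤ -((W a).place.ord g) := by
        show 0 ≤ -(pl a).ord g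
        omega
      exact mul_nonneg (by positivity) hle) v hv
    rw [Place.ord_inv] at h
    omega
  have hord : ∀ a, ∃ m : ℕ, (W a).index = c a * m ∧ 0 < m ∧ (e a : ℤ) = m * (pl a).ord x := by
    intro a
    obtain ⟨m, hm⟩ := (W a).dvd_index (hdvd a)
    have hpos := (W a).index_pos
    rw [hm] at hpos
    refine ⟨m, hm, Nat.pos_of_mul_pos_left hpos, ?_⟩
    have h := (W a).w_eq hx0
    rw [hwx a, hm] at h
    push_cast at h
    have hc' : (c a : ℤ) ≠ 0 := by exact_mod_cast (hc a).ne'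
    have h' : (c a : ℤ) * (e a : ℤ) = (c a : ℤ) * ((m : ℤ) * (pl a).ord x) := by
      rw [mul_comm (c a : ℤ) (e a : ℤ), h]; ring
    exact mul_left_cancel₀ hc' h'
  have hordle : ∀ a, (pl a).ord x ≤ e a := by
    intro a
    obtain ⟨m, -, hm1, hm⟩ := hord a
    have hp : 0 < (pl a).ord x := (hS _).1 (hmem a)
    rw [hm]
    exact le_mul_of_one_le_left hp.le (by exact_mod_cast hm1)
  have himg : S = Finset.univ.image pl := by
    ext v
    simp only [Finset.mem_image, Finset.mem_univ, true_and]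
    exact ⟨hsurj v, fun ⟨a, ha⟩ => ha ▸ hmem a⟩
  have hnn : ∀ v ∈ S, (0 : ℤ) ≤ v.ord x := fun v hv => ((hS v).1 hv).le
  have hle2 : ∑ v ∈ S, v.ord x ≤ ∑ a, (pl a).ord x := by
    rw [himg]
    exact Finset.sum_image_le_of_nonneg fun v hv => hnn v (himg ▸ hv)
  have heq : ∀ a ∈ Finset.univ, (pl a).ord x = (e a : ℤ) :=
    (Finset.sum_eq_sum_iff_of_le fun a _ => hordle a).1
      (le_antisymm (Finset.sum_le_sum fun a _ => hordle a) (hsum.trans hle2))
  have hinj : Function.Injective pl := by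
    intro a b hab
    by_contra hne
    have himg' : S = (Finset.univ.erase a).image pl := by
      ext v
      simp only [Finset.mem_image, Finset.mem_erase, Finset.mem_univ, and_true]
      refine ⟨fun hv => ?_, fun ⟨d, _, hd⟩ => hd ▸ hmem d⟩
      obtain ⟨d, hd⟩ := hsurj v hv
      rcases eq_or_ne d a with rfl | hda
      · exact ⟨b, Ne.symm hne, hab ▸ hd⟩
      · exact ⟨d, hda, hd⟩
    have h1 : ∑ v ∈ S, v.ord x ≤ ∑ d ∈ Finset.univ.erase a, (pl d).ord x := by
      rw [himg']
      exact Finset.sum_image_le_of_nonneg fun v hv => hnn v (himg' ▸ hv)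
    have h2 := Finset.add_sum_erase Finset.univ (fun d => (pl d).ord x) (Finset.mem_univ a)
    have h3 : 0 < (pl a).ord x := (hS _).1 (hmem a)
    have h4 : ∑ d, (pl d).ord x = ∑ d, (e d : ℤ) := Finset.sum_congr rfl heq
    omega
  refine ⟨fun a => ?_, hinj, fun v hv => hsurj v ((hS v).2 hv),
    fun a => heq a (Finset.mem_univ a)⟩
  obtain ⟨m, hm, _, hme⟩ := hord a
  rw [heq a (Finset.mem_univ a)] at hme
  have he' : (e a : ℤ) ≠ 0 := by exact_mod_cast (he a).ne'
  have hm1 : (m : ℤ) = 1 := by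
    apply mul_right_cancel₀ he'
    rw [one_mul, ← hme]
  have : m = 1 := by exact_mod_cast hm1
  rw [hm, this, mul_one]

end Fermat.Agent.Places
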