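/-
Evaluation in a model: the valuations at the points of `ℍ` and at the cusps, and the places they
define.
-/
import Fermat.Agent.Places.Defs
import Fermat.Agent.Places.IntVal
import Fermat.Agent.Places.Analytic
import Mathlib.FieldTheory.IsAlgClosed.Basic

set_option autoImplicit false

noncomputable section

open Filter UpperHalfPlane IntermediateField AlgebraicCurve ModularCurve Fermat.Agent.ModFun
open scoped Topology MatrixGroups
open ModularGroup (S T)

namespace Fermat.Agent.Places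

theorem jqModC_order : (jqModC ℂ).order = -1 := by
  refine le_antisymm (HahnSeries.order_le_of_coeff_ne_zero ?_) ?_
  · rw [coeff_jqModC_neg_one]; exact one_ne_zero
  · by_contra h
    push Not at h
    exact (mt HahnSeries.coeff_order_eq_zero.1 (jqModC_ne_zero_of_nontrivial ℂ))
      (coeff_jqModC_of_lt ℂ h)

variable {Γ : Subgroup SL(2, ℤ)} [Γ.FiniteIndex] {F : Type*} [Field F] [Algebra ℂ F]

theorem cuspWidth_pos (g : SL(2, ℤ)) : 0 < cuspWidth Γ g :=
  Function.minimalPeriod_pos_of_mem_periodicPts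
    ((MulAction.injective T).mem_periodicPts _)

omit [Γ.FiniteIndex] in
theorem T_zpow_smul_eq_iff (g : SL(2, ℤ)) (h : ℤ) :
    T ^ h • (g : SL(2, ℤ) ⧸ Γ) = g ↔ (cuspWidth Γ g : ℤ) ∣ h :=
  MulAction.zpow_smul_eq_iff_minimalPeriod_dvd

instance instNeZero_cuspWidth (g : SL(2, ℤ)) : NeZero (cuspWidth Γ g) :=
  ⟨(cuspWidth_pos g).ne'⟩

omit [Γ.FiniteIndex] in
theorem conj_T_zpow_mem (g : SL(2, ℤ)) {h : ℤ} (hh : (cuspWidth Γ g : ℤ) ∣ h) :
    g⁻¹ * T ^ h * g ∈ Γ := by
  have h1 := (T_zpow_smul_eq_iff g h).2 hh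
  rw [MulAction.Quotient.smul_coe, eq_comm, QuotientGroup.eq, smul_eq_mul] at h1
  rw [mul_assoc]
  exact h1

namespace Model

variable (M : Model Γ F)

omit [Γ.FiniteIndex] in
theorem ev_zero : EqPunct (M.ev 0) 0 := by
  have h := M.ev_const 0
  rw [map_zero] at h
  exact h

omit [Γ.FiniteIndex] in
theorem ev_one : EqPunct (M.ev 1) 1 := by
  have h := M.ev_const 1
  rw [map_one] at h
  exact h

omit [Γ.FiniteIndex] in
theorem ev_sub (f g : F) : EqPunct (M.ev (f - g)) (M.ev f - M.ev g) := by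
  have h := eqPunct_sub (M.ev_add (f - g) g) (EqPunct.refl (M.ev g))
  rw [sub_add_cancel, add_sub_cancel_right] at h
  exact h.symm

omit [Γ.FiniteIndex] in
theorem ev_inv {f : F} (hf : f ≠ 0) : EqPunct (M.ev f⁻¹) (M.ev f)⁻¹ := by
  intro τ
  have h1 := M.ev_mul f f⁻¹
  rw [mul_inv_cancel₀ hf] at h1
  filter_upwards [(h1.symm.trans M.ev_one) τ] with w hw
  simp only [Function.comp_apply, Pi.mul_apply, Pi.one_apply, Pi.inv_apply] at hw ⊢
  exact eq_inv_of_mul_eq_one_right hw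

omit [Γ.FiniteIndex] in
theorem not_eqPunct_zero {f : F} (hf : f ≠ 0) : ¬ EqPunct (M.ev f) 0 := by
  intro h
  have h1 := M.ev_mul f f⁻¹
  rw [mul_inv_cancel₀ hf] at h1
  have h2 : EqPunct (1 : ℍ → ℂ) ((0 : ℍ → ℂ) * M.ev f⁻¹) :=
    (M.ev_one.symm.trans h1).trans (eqPunct_mul h (EqPunct.refl _))
  obtain ⟨w, hw⟩ := (h2 UpperHalfPlane.I).exists
  simp at hw

omit [Γ.FiniteIndex] in
theorem ordH_ev_ne_top {f : F} (hf : f ≠ 0) (τ : ℍ) : ordH (M.ev f) τ ≠ ⊤ :=
  fun h => M.not_eqPunct_zero hf ((ordH_eq_top_iff (M.mero f)).1 h)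

omit [Γ.FiniteIndex] in
theorem ev_jF_sub (c : ℂ) :
    EqPunct (M.ev (M.jF - algebraMap ℂ F c)) (jfun - fun _ => c) :=
  (M.ev_sub _ _).trans (eqPunct_sub M.ev_jF (M.ev_const c))

omit [Γ.FiniteIndex] in
theorem jF_ne_algebraMap (c : ℂ) : M.jF ≠ algebraMap ℂ F c := by
  intro h
  have h1 : EqPunct jfun fun _ => c := by
    have := M.ev_jF
    rw [h] at this
    exact this.symm.trans (M.ev_const c)
  have h2 := qexp_eq_of_eqPunct hasQExp_jfun (HasQExp.const c) h1
  have h3 := congrArg (fun x => HahnSeries.coeff x (-1)) h2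
  simp [coeff_jqModC_neg_one] at h3

omit [Γ.FiniteIndex] in
theorem transcendental_jF : Transcendental ℂ M.jF := by
  intro halg
  have h := minpoly.irreducible halg.isIntegral
  have hdeg := IsAlgClosed.degree_eq_one_of_irreducible ℂ h
  obtain ⟨c, hc⟩ := minpoly.mem_range_of_degree_eq_one ℂ M.jF hdeg
  exact M.jF_ne_algebraMap c hc.symm

/-- The expansion at the cusp `g⁻¹ ∞` in the local parameter of the curve. -/
theorem exists_cuspExp (g : SL(2, ℤ)) (f : F) :
    ∃ x, HasQExp (cuspWidth Γ g) (fun τ => M.ev f (g⁻¹ • τ)) x := by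
  obtain ⟨h, hh, x, hx⟩ := M.qexp f g⁻¹
  haveI : NeZero h := ⟨hh.ne'⟩
  have h1 := hx.expand_period (cuspWidth Γ g)
  rw [mul_comm] at h1
  obtain ⟨y, -, hy⟩ := HasQExp.exists_of_periodic h h1 (Eventually.of_forall fun τ => by
    have hT : ((cuspWidth Γ g : ℕ) : ℝ) +ᵥ τ = T ^ ((cuspWidth Γ g : ℕ) : ℤ) • τ := by
      rw [modular_T_zpow_smul, Int.cast_natCast]
    simp only [hT]
    have hm := conj_T_zpow_mem (Γ := Γ) g (dvd_refl (cuspWidth Γ g : ℤ))
    have := M.smul_eq f _ hm (g⁻¹ • τ)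
    rw [smul_smul, mul_assoc (g⁻¹ * _), mul_inv_cancel, mul_one, mul_smul] at this
    exact this)
  exact ⟨y, hy⟩

/-- The expansion at the cusp `g⁻¹ ∞` in `q` of period the width. -/
def cuspExp (g : SL(2, ℤ)) (f : F) : LaurentSeries ℂ := (M.exists_cuspExp g f).choose

theorem hasQExp_cuspExp (g : SL(2, ℤ)) (f : F) :
    HasQExp (cuspWidth Γ g) (fun τ => M.ev f (g⁻¹ • τ)) (M.cuspExp g f) :=
  (M.exists_cuspExp g f).choose_spec

theorem cuspExp_eq (g : SL(2, ℤ)) {f : F} {u : ℍ → ℂ} {x : LaurentSeries ℂ}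
    (hu : EqPunct (M.ev f) u)
    (hx : HasQExp (cuspWidth Γ g) (fun τ => u (g⁻¹ • τ)) x) : M.cuspExp g f = x :=
  qexp_eq_of_eqPunct (M.hasQExp_cuspExp g f) hx (eqPunct_comp_smul hu g⁻¹)

theorem cuspExp_mul (g : SL(2, ℤ)) (f f' : F) :
    M.cuspExp g (f * f') = M.cuspExp g f * M.cuspExp g f' :=
  M.cuspExp_eq g (M.ev_mul f f') ((M.hasQExp_cuspExp g f).mul (M.hasQExp_cuspExp g f'))

theorem cuspExp_add (g : SL(2, ℤ)) (f f' : F) :
    M.cuspExp g (f + f') = M.cuspExp g f + M.cuspExp g f' :=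
  M.cuspExp_eq g (M.ev_add f f') ((M.hasQExp_cuspExp g f).add (M.hasQExp_cuspExp g f'))

theorem cuspExp_algebraMap (g : SL(2, ℤ)) (c : ℂ) :
    M.cuspExp g (algebraMap ℂ F c) = HahnSeries.C c :=
  M.cuspExp_eq g (M.ev_const c) (HasQExp.const c)

theorem cuspExp_jF (g : SL(2, ℤ)) :
    M.cuspExp g M.jF = qExpand ℂ (cuspWidth Γ g) (jqModC ℂ) := by
  refine M.cuspExp_eq g M.ev_jF ?_
  have h := hasQExp_jfun.expand_period (cuspWidth Γ g)
  rw [one_mul] at h
  refine h.congr (Eventually.of_forall fun τ => ?_)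
  exact (jfun_smul g⁻¹ τ).symm

theorem cuspExp_ne_zero' {f : F} (hf : f ≠ 0) (g : SL(2, ℤ)) : M.cuspExp g f ≠ 0 := by
  intro h
  have h1 := (qexp_eq_zero_iff (meroH_comp_smul (M.mero f) g⁻¹) (M.hasQExp_cuspExp g f)).1 h
  have h2 := eqPunct_comp_smul h1 g
  simp only [smul_smul, inv_mul_cancel, one_smul, Pi.zero_apply] at h2
  exact M.not_eqPunct_zero hf h2

theorem order_cuspExp_jF (g : SL(2, ℤ)) :
    (M.cuspExp g M.jF).order = -(cuspWidth Γ g : ℤ) := by
  rw [M.cuspExp_jF, order_qExpand _ (jqModC_ne_zero_of_nontrivial ℂ), jqModC_order, mul_neg,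
    mul_one]

/-- The valuation at a point of the upper half plane. -/
def pointVal (τ : ℍ) : IntVal ℂ F where
  w f := (ordH (M.ev f) τ).untop₀
  map_mul f g hf hg := by
    rw [(M.ev_mul f g).ordH_eq τ, ← WithTop.untop₀_add (M.ordH_ev_ne_top hf τ)
      (M.ordH_ev_ne_top hg τ)]
    exact congrArg WithTop.untop₀
      (meromorphicOrderAt_mul (M.mero f _ τ.im_pos) (M.mero g _ τ.im_pos))
  min_le_add f g hf hg hfg := by
    have h : min (ordH (M.ev f) τ) (ordH (M.ev g) τ) ≤ ordH (M.ev (f + g)) τ := by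
      rw [(M.ev_add f g).ordH_eq τ]
      exact meromorphicOrderAt_add (M.mero f _ τ.im_pos) (M.mero g _ τ.im_pos)
    have hne := M.ordH_ev_ne_top hfg τ
    rcases le_total (ordH (M.ev f) τ) (ordH (M.ev g) τ) with hle | hle
    · rw [min_eq_left hle] at h
      exact (min_le_left _ _).trans (WithTop.untop₀_le_untop₀ hne h)
    · rw [min_eq_right hle] at h
      exact (min_le_right _ _).trans (WithTop.untop₀_le_untop₀ hne h)
  map_const c hc := by
    classical
    rw [(M.ev_const c).ordH_eq τ, ordH]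
    simp only [Function.comp_def]
    rw [meromorphicOrderAt_const, if_neg hc]
    rfl
  nontrivial := by
    have hne : M.jF - algebraMap ℂ F (jfun τ) ≠ 0 := sub_ne_zero.2 (M.jF_ne_algebraMap _)
    refine ⟨_, hne, ?_⟩
    have h0 := M.ordH_ev_ne_top hne τ
    have hm : MeromorphicAt ((jfun - fun _ => jfun τ) ∘ ofComplex) (τ : ℂ) :=
      meroH_congr (M.mero _) (M.ev_jF_sub _) _ τ.im_pos
    have hpos : 0 < ordH (M.ev (M.jF - algebraMap ℂ F (jfun τ))) τ := by
      rw [(M.ev_jF_sub _).ordH_eq τ, ordH, ← tendsto_zero_iff_meromorphicOrderAt_pos hm]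
      have hc : Tendsto (jfun ∘ ofComplex) (𝓝 (τ : ℂ)) (𝓝 (jfun τ)) := by
        have := (mdifferentiableAt_iff.1 (mdifferentiable_jfun τ)).continuousAt.tendsto
        simpa [Function.comp_apply, ofComplex_apply] using this
      simpa [Function.comp_def] using
        (hc.sub_const (jfun τ)).mono_left (nhdsWithin_le_nhds (s := {(τ : ℂ)}ᶜ))
    obtain ⟨n, hn⟩ := WithTop.ne_top_iff_exists.1 h0
    rw [← hn] at hpos ⊢
    rw [WithTop.untop₀_coe]
    exact (WithTop.coe_pos.1 hpos).ne'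

/-- The valuation at the cusp `g⁻¹ ∞`. -/
def cuspVal (g : SL(2, ℤ)) : IntVal ℂ F where
  w f := (M.cuspExp g f).order
  map_mul f f' hf hf' := by
    rw [M.cuspExp_mul, HahnSeries.order_mul (M.cuspExp_ne_zero' hf g) (M.cuspExp_ne_zero' hf' g)]
  min_le_add f f' hf hf' hff' := by
    rw [M.cuspExp_add]
    refine HahnSeries.min_order_le_order_add ?_
    rw [← M.cuspExp_add]
    exact M.cuspExp_ne_zero' hff' g
  map_const c _ := by rw [M.cuspExp_algebraMap, HahnSeries.order_C]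
  nontrivial := by
    refine ⟨M.jF, fun h => M.jF_ne_algebraMap 0 (by simpa using h), ?_⟩
    rw [M.order_cuspExp_jF]
    have := cuspWidth_pos (Γ := Γ) g
    omega

/-- The place of the function field at a point of the upper half plane. -/
def placeAt (τ : ℍ) : Place ℂ F := (M.pointVal τ).place

/-- The place of the function field at the cusp `g⁻¹ ∞`. -/
def cuspPlace (g : SL(2, ℤ)) : Place ℂ F := (M.cuspVal g).place

end Model

end Fermat.Agent.Places
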