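/-
Symmetric functions of the conjugates of a function: they are rational functions of `j`, with no
pole where none of the conjugates has one.
-/
import Fermat.Agent.Places.Eval
import Fermat.Agent.ModFun.LevelOne
import Mathlib.Algebra.Polynomial.BigOperators

set_option autoImplicit false

noncomputable section

open Filter UpperHalfPlane IntermediateField AlgebraicCurve ModularCurve Fermat.Agent.ModFun
open scoped Topology MatrixGroups Polynomial Manifold
open ModularGroup (S T)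

namespace Fermat.Agent.Places

/-- `τ ↦ P (j τ)`. -/
def polyJ : ℂ[X] →+* (ℍ → ℂ) := Pi.ringHom fun τ => Polynomial.evalRingHom (jfun τ)

theorem polyJ_apply (P : ℂ[X]) (τ : ℍ) : polyJ P τ = P.eval (jfun τ) := rfl

theorem mdifferentiable_polyJ (P : ℂ[X]) : MDiff (polyJ P) := by
  induction P using Polynomial.induction_on' with
  | add p q hp hq => rw [map_add]; exact hp.add hq
  | monomial n a =>
    rw [UpperHalfPlane.mdifferentiable_iff]
    have hj := UpperHalfPlane.mdifferentiable_iff.1 mdifferentiable_jfun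
    refine ((hj.pow n).const_mul a).congr fun z _ => ?_
    simp [polyJ_apply]

theorem meroH_polyJ (P : ℂ[X]) : MeroH (polyJ P) :=
  meroH_of_mdifferentiable (mdifferentiable_polyJ P)

theorem ordH_polyJ_nonneg (P : ℂ[X]) (τ : ℍ) : 0 ≤ ordH (polyJ P) τ :=
  ((UpperHalfPlane.mdifferentiable_iff.1 (mdifferentiable_polyJ P)).analyticAt
    (isOpen_upperHalfPlaneSet.mem_nhds τ.im_pos)).meromorphicOrderAt_nonneg

theorem hasQExp_polyJ (P : ℂ[X]) :
    HasQExp 1 (polyJ P) (Polynomial.aeval (jqModC ℂ) P) := by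
  induction P using Polynomial.induction_on' with
  | add p q hp hq => rw [map_add, map_add]; exact hp.add hq
  | monomial n a =>
    rw [Polynomial.aeval_monomial, algebraMap_laurentSeries_eq_single,
      ← HahnSeries.C_apply]
    refine ((hasQExp_jfun.pow n).const_mul a).congr (Eventually.of_forall fun τ => ?_)
    simp [polyJ_apply]

theorem coeff_aeval_jq_of_lt {P : ℂ[X]} {k : ℤ} (hk : k < -(P.natDegree : ℤ)) :
    (Polynomial.aeval (jqModC ℂ) P).coeff k = 0 := by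
  rw [Polynomial.aeval_eq_sum_range, HahnSeries.coeff_sum]
  refine Finset.sum_eq_zero fun i hi => ?_
  rw [Algebra.smul_def, algebraMap_laurentSeries_eq_single, ← HahnSeries.C_apply,
    HahnSeries.C_mul_eq_smul, HahnSeries.coeff_smul, coeff_jqModC_pow_of_lt, smul_zero]
  have : i ≤ P.natDegree := Nat.lt_succ_iff.1 (Finset.mem_range.1 hi)
  omega

theorem coeff_aeval_jq_natDegree (P : ℂ[X]) :
    (Polynomial.aeval (jqModC ℂ) P).coeff (-(P.natDegree : ℤ)) = P.leadingCoeff := by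
  rw [Polynomial.aeval_eq_sum_range, HahnSeries.coeff_sum,
    Finset.sum_eq_single_of_mem P.natDegree (Finset.self_mem_range_succ _)]
  · rw [Algebra.smul_def, algebraMap_laurentSeries_eq_single, ← HahnSeries.C_apply,
      HahnSeries.C_mul_eq_smul, HahnSeries.coeff_smul, coeff_jqModC_pow_self, smul_eq_mul, mul_one,
      Polynomial.leadingCoeff]
  · intro i hi hne
    rw [Algebra.smul_def, algebraMap_laurentSeries_eq_single, ← HahnSeries.C_apply,
      HahnSeries.C_mul_eq_smul, HahnSeries.coeff_smul, coeff_jqModC_pow_of_lt, smul_zero]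
    have : i ≤ P.natDegree := Nat.lt_succ_iff.1 (Finset.mem_range.1 hi)
    omega

theorem aeval_jq_ne_zero {P : ℂ[X]} (hP : P ≠ 0) : Polynomial.aeval (jqModC ℂ) P ≠ 0 := by
  intro h
  have := coeff_aeval_jq_natDegree P
  rw [h] at this
  exact hP (Polynomial.leadingCoeff_eq_zero.1 this.symm)

theorem order_aeval_jq {P : ℂ[X]} (hP : P ≠ 0) :
    (Polynomial.aeval (jqModC ℂ) P).order = -(P.natDegree : ℤ) := by
  refine le_antisymm (HahnSeries.order_le_of_coeff_ne_zero ?_) ?_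
  · rw [coeff_aeval_jq_natDegree]
    exact mt Polynomial.leadingCoeff_eq_zero.1 hP
  · by_contra h
    push Not at h
    exact mt HahnSeries.coeff_order_eq_zero.1 (aeval_jq_ne_zero hP) (coeff_aeval_jq_of_lt h)

theorem not_eqPunct_polyJ_zero {P : ℂ[X]} (hP : P ≠ 0) : ¬ EqPunct (polyJ P) 0 := fun h =>
  aeval_jq_ne_zero hP ((qexp_eq_zero_iff (meroH_polyJ P) (hasQExp_polyJ P)).2 h)

/-- `EqPunct` cancels a factor which is nowhere locally zero. -/
theorem eqPunct_of_mul_left {u v w : ℍ → ℂ} (hu : MeroH u) (hu0 : ¬ EqPunct u 0)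
    (h : EqPunct (u * v) (u * w)) : EqPunct v w := by
  intro τ
  have hne : ∀ᶠ z in 𝓝[≠] (τ : ℂ), (u ∘ ofComplex) z ≠ 0 :=
    (meromorphicOrderAt_ne_top_iff_eventually_ne_zero (hu _ τ.im_pos)).1
      fun htop => hu0 ((ordH_eq_top_iff hu).1 htop)
  filter_upwards [hne, h τ] with z hz hz'
  simp only [Function.comp_apply, Pi.mul_apply] at hz hz' ⊢
  exact mul_left_cancel₀ hz hz'

/-- A level one meromorphic modular function. -/
structure IsLevelOne (s : ℍ → ℂ) : Prop where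
  mero : MeroH s
  smul_eq : ∀ (γ : SL(2, ℤ)) (τ : ℍ), s (γ • τ) = s τ
  qexp : ∃ h : ℕ, 0 < h ∧ ∃ x, HasQExp h s x

theorem IsLevelOne.exists_hasQExp_one {s : ℍ → ℂ} (hs : IsLevelOne s) :
    ∃ x, HasQExp 1 s x := by
  obtain ⟨h, hh, x, hx⟩ := hs.qexp
  haveI : NeZero h := ⟨hh.ne'⟩
  obtain ⟨y, -, hy⟩ := HasQExp.exists_of_periodic (h := 1) h (x := x) (by rwa [one_mul])
    (Eventually.of_forall fun τ => by
      rw [show ((1 : ℕ) : ℝ) +ᵥ τ = T • τ by rw [Nat.cast_one, modular_T_smul]]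
      exact hs.smul_eq T τ)
  exact ⟨y, hy⟩

theorem IsLevelOne.exists_fraction {s : ℍ → ℂ} (hs : IsLevelOne s) :
    ∃ D P : ℂ[X], D ≠ 0 ∧ EqPunct (s * polyJ D) (polyJ P) := by
  obtain ⟨x, hx⟩ := hs.exists_hasQExp_one
  have hmf : IsModularFun 1 s :=
    ⟨hs.mero, fun γ _ τ => hs.smul_eq γ τ, fun γ => ⟨x, by
      refine hx.congr (Eventually.of_forall fun τ => ?_)
      exact (hs.smul_eq γ τ).symm⟩⟩
  obtain ⟨P, D, hPD⟩ := IntermediateField.mem_adjoin_simple_iff ℂ x |>.1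
    (mem_adjoin_jqModC_of_isModularFun_one hmf hx)
  rcases eq_or_ne D 0 with rfl | hD
  · refine ⟨1, 0, one_ne_zero, ?_⟩
    rw [map_zero, div_zero] at hPD
    subst hPD
    rw [map_one, map_zero, mul_one]
    exact (qexp_eq_zero_iff hs.mero hx).1 rfl
  refine ⟨D, P, hD, ?_⟩
  have hxD : x * Polynomial.aeval (jqModC ℂ) D = Polynomial.aeval (jqModC ℂ) P := by
    rw [hPD, div_mul_cancel₀ _ (aeval_jq_ne_zero hD)]
  have h0 : HasQExp 1 (s * polyJ D - polyJ P) 0 :=
    ((hx.mul (hasQExp_polyJ D)).sub (hasQExp_polyJ P)).of_eq (sub_eq_zero.2 hxD)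
  have h1 := (qexp_eq_zero_iff
    (meroH_sub (meroH_mul hs.mero (meroH_polyJ D)) (meroH_polyJ P)) h0).1 rfl
  have h2 := eqPunct_add h1 (EqPunct.refl (polyJ P))
  rwa [sub_add_cancel, zero_add] at h2

/-- No pole at `τ₀`: the denominator can be chosen prime to `X - j τ₀`. -/
theorem IsLevelOne.exists_fraction_at {s : ℍ → ℂ} (hs : IsLevelOne s) {τ₀ : ℍ}
    (h0 : 0 ≤ ordH s τ₀) :
    ∃ D P : ℂ[X], D.eval (jfun τ₀) ≠ 0 ∧ EqPunct (s * polyJ D) (polyJ P) := by
  classical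
  have hex : ∃ n : ℕ, ∃ D P : ℂ[X], D ≠ 0 ∧ EqPunct (s * polyJ D) (polyJ P) ∧ D.natDegree = n := by
    obtain ⟨D, P, hD, h⟩ := hs.exists_fraction
    exact ⟨_, D, P, hD, h, rfl⟩
  obtain ⟨D, P, hD, hsD, hdeg⟩ := Nat.find_spec hex
  refine ⟨D, P, fun hDt => ?_, hsD⟩
  set t := jfun τ₀
  obtain ⟨D', hD'⟩ := Polynomial.dvd_iff_isRoot.2 hDt
  -- `P` also vanishes at `t`
  have hPt : P.eval t = 0 := by
    by_contra hne
    have hD1 : polyJ D = polyJ (Polynomial.X - Polynomial.C t) * polyJ D' := by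
      rw [← map_mul, ← hD']
    have hpos : 0 < ordH (polyJ (Polynomial.X - Polynomial.C t)) τ₀ := by
      have ha := (UpperHalfPlane.mdifferentiable_iff.1
        (mdifferentiable_polyJ (Polynomial.X - Polynomial.C t))).analyticAt
        (isOpen_upperHalfPlaneSet.mem_nhds τ₀.im_pos)
      rw [ordH, ← tendsto_zero_iff_meromorphicOrderAt_pos ha.meromorphicAt]
      have := ha.continuousAt.tendsto
      simpa [Function.comp_apply, polyJ_apply, ofComplex_apply, t] using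
        this.mono_left (nhdsWithin_le_nhds (s := {(τ₀ : ℂ)}ᶜ))
    have h1 : 0 < ordH (s * polyJ D) τ₀ := by
      have hmX := meroH_polyJ (Polynomial.X - Polynomial.C t)
      have hmD := meroH_polyJ D'
      rw [hD1, ordH, show ((s * (polyJ (Polynomial.X - Polynomial.C t) * polyJ D')) ∘ ofComplex) =
        (s ∘ ofComplex) * ((polyJ (Polynomial.X - Polynomial.C t) ∘ ofComplex) *
          (polyJ D' ∘ ofComplex)) from rfl,
        meromorphicOrderAt_mul (hs.mero _ τ₀.im_pos)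
          ((hmX _ τ₀.im_pos).mul (hmD _ τ₀.im_pos)),
        meromorphicOrderAt_mul (hmX _ τ₀.im_pos) (hmD _ τ₀.im_pos)]
      exact hpos.trans_le ((le_add_of_nonneg_right (ordH_polyJ_nonneg D' τ₀)).trans
        (le_add_of_nonneg_left h0))
    rw [hsD.ordH_eq τ₀, ordH] at h1
    have ha := (UpperHalfPlane.mdifferentiable_iff.1 (mdifferentiable_polyJ P)).analyticAt
      (isOpen_upperHalfPlaneSet.mem_nhds τ₀.im_pos)
    rw [← tendsto_zero_iff_meromorphicOrderAt_pos ha.meromorphicAt] at h1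
    have h2 := tendsto_nhds_unique (ha.continuousAt.tendsto.mono_left nhdsWithin_le_nhds) h1
    exact hne (by simpa [Function.comp_apply, polyJ_apply, ofComplex_apply, t] using h2)
  obtain ⟨P', hP'⟩ := Polynomial.dvd_iff_isRoot.2 hPt
  have hD'0 : D' ≠ 0 := fun h => hD (by rw [hD', h, mul_zero])
  have hnew : EqPunct (s * polyJ D') (polyJ P') := by
    refine eqPunct_of_mul_left (meroH_polyJ (Polynomial.X - Polynomial.C t))
      (not_eqPunct_polyJ_zero (Polynomial.X_sub_C_ne_zero t)) ?_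
    rw [mul_left_comm, ← map_mul, ← map_mul, ← hD', ← hP']
    exact hsD
  refine Nat.find_min hex (m := D'.natDegree) ?_ ⟨D', P', hD'0, hnew, rfl⟩
  rw [← hdeg, hD', Polynomial.natDegree_mul (Polynomial.X_sub_C_ne_zero t) hD'0,
    Polynomial.natDegree_X_sub_C]
  omega

/-- No pole at `∞`: the numerator has at most the degree of the denominator. -/
theorem IsLevelOne.exists_fraction_infty {s : ℍ → ℂ} (hs : IsLevelOne s)
    (hb : IsBoundedAtImInfty s) :
    ∃ D P : ℂ[X], D ≠ 0 ∧ P.natDegree ≤ D.natDegree ∧ EqPunct (s * polyJ D) (polyJ P) := by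
  obtain ⟨D, P, hD, h⟩ := hs.exists_fraction
  refine ⟨D, P, hD, ?_, h⟩
  obtain ⟨x, hx⟩ := hs.exists_hasQExp_one
  have hxD := qexp_eq_of_eqPunct (hx.mul (hasQExp_polyJ D)) (hasQExp_polyJ P) h
  rcases eq_or_ne P 0 with rfl | hP
  · simp
  have hx0 : x ≠ 0 := fun h0 => aeval_jq_ne_zero hP (by rw [← hxD, h0, zero_mul])
  have hord := congrArg HahnSeries.order hxD
  rw [HahnSeries.order_mul hx0 (aeval_jq_ne_zero hD), order_aeval_jq hD, order_aeval_jq hP] at hord
  by_contra hlt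
  push Not at hlt
  have hneg : x.order < 0 := by omega
  have hlim := hx.tendsto_norm_atTop hneg (mt HahnSeries.coeff_order_eq_zero.1 hx0)
  obtain ⟨M, A, hMA⟩ := isBoundedAtImInfty_iff.1 hb
  obtain ⟨z, hz1, hz2⟩ := (((hlim.eventually_gt_atTop M).and
    ((atImInfty_basis.mem_of_mem (i := A) trivial)))).exists
  exact absurd (hMA z hz2) (not_le.2 hz1)

/-! ### Symmetric functions of the conjugates -/

variable {Γ : Subgroup SL(2, ℤ)} [Γ.FiniteIndex] {F : Type*} [Field F] [Algebra ℂ F]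

namespace Model

variable (M : Model Γ F)

omit [Γ.FiniteIndex] in
theorem ev_sum {ι : Type*} (s : Finset ι) (f : ι → F) :
    EqPunct (M.ev (∑ i ∈ s, f i)) (∑ i ∈ s, M.ev (f i)) := by
  classical
  induction s using Finset.induction_on with
  | empty => simpa using M.ev_zero
  | insert a t hat ih =>
    rw [Finset.sum_insert hat, Finset.sum_insert hat]
    exact (M.ev_add _ _).trans (eqPunct_add (EqPunct.refl _) ih)

omit [Γ.FiniteIndex] in
theorem ev_pow (f : F) (n : ℕ) : EqPunct (M.ev (f ^ n)) (M.ev f ^ n) := by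
  induction n with
  | zero => simpa using M.ev_one
  | succ n ih =>
    rw [pow_succ, pow_succ]
    exact (M.ev_mul _ _).trans (eqPunct_mul ih (EqPunct.refl _))

omit [Γ.FiniteIndex] in
theorem ev_aeval_jF (P : ℂ[X]) : EqPunct (M.ev (Polynomial.aeval M.jF P)) (polyJ P) := by
  induction P using Polynomial.induction_on' with
  | add p q hp hq =>
    rw [map_add, map_add]
    exact (M.ev_add _ _).trans (eqPunct_add hp hq)
  | monomial n a =>
    rw [Polynomial.aeval_monomial]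
    refine ((M.ev_mul _ _).trans (eqPunct_mul (M.ev_const a)
      ((M.ev_pow _ n).trans (eqPunct_pow M.ev_jF n)))).trans (eqPunct_of_eq ?_)
    funext τ
    simp [polyJ_apply]

/-- The conjugate `τ ↦ f (g⁻¹ τ)` attached to the coset `g Γ`. -/
def conjFun (f : F) (q : SL(2, ℤ) ⧸ Γ) : ℍ → ℂ :=
  Quotient.liftOn' q (fun g τ => M.ev f (g⁻¹ • τ)) (by
    intro a b hab
    funext τ
    have hab' : a⁻¹ * b ∈ Γ := QuotientGroup.leftRel_apply.mp hab
    rw [← M.smul_eq f _ hab' (b⁻¹ • τ), mul_smul, smul_inv_smul])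

omit [Γ.FiniteIndex] in
theorem conjFun_mk (f : F) (g : SL(2, ℤ)) (τ : ℍ) :
    M.conjFun f g τ = M.ev f (g⁻¹ • τ) := rfl

omit [Γ.FiniteIndex] in
theorem conjFun_smul (f : F) (h : SL(2, ℤ)) (q : SL(2, ℤ) ⧸ Γ) (τ : ℍ) :
    M.conjFun f (h • q) τ = M.conjFun f q (h⁻¹ • τ) := by
  induction q using QuotientGroup.induction_on with
  | _ g => rw [MulAction.Quotient.smul_coe, conjFun_mk, conjFun_mk, smul_eq_mul, mul_inv_rev,
      mul_smul]

omit [Γ.FiniteIndex] in
theorem meroH_conjFun (f : F) (q : SL(2, ℤ) ⧸ Γ) : MeroH (M.conjFun f q) := by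
  induction q using QuotientGroup.induction_on with
  | _ g => exact meroH_comp_smul (M.mero f) g⁻¹

omit [Γ.FiniteIndex] in
theorem exists_hasQExp_conjFun (f : F) (q : SL(2, ℤ) ⧸ Γ) :
    ∃ h : ℕ, 0 < h ∧ ∃ x, HasQExp h (M.conjFun f q) x := by
  induction q using QuotientGroup.induction_on with
  | _ g => exact M.qexp f g⁻¹

variable [Fintype (SL(2, ℤ) ⧸ Γ)]

/-- `∏ (X - f_q)` over the cosets. -/
def conjPoly (f : F) : Polynomial (ℍ → ℂ) :=
  ∏ q : SL(2, ℤ) ⧸ Γ, (Polynomial.X - Polynomial.C (M.conjFun f q))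

omit [Γ.FiniteIndex] in
theorem conjPoly_monic (f : F) : (M.conjPoly f).Monic :=
  Polynomial.monic_prod_of_monic _ _ fun _ _ => Polynomial.monic_X_sub_C _

omit [Γ.FiniteIndex] in
theorem natDegree_conjPoly (f : F) :
    (M.conjPoly f).natDegree = Fintype.card (SL(2, ℤ) ⧸ Γ) := by
  rw [conjPoly, Polynomial.natDegree_prod_of_monic _ _ fun _ _ => Polynomial.monic_X_sub_C _]
  simp

omit [Γ.FiniteIndex] in
theorem conjPoly_coeff_mem (f : F) (A : Subring (ℍ → ℂ)) (hA : ∀ q, M.conjFun f q ∈ A) (i : ℕ) :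
    (M.conjPoly f).coeff i ∈ A := by
  have h : M.conjPoly f =
      (∏ q : SL(2, ℤ) ⧸ Γ, (Polynomial.X - Polynomial.C (⟨_, hA q⟩ : A))).map A.subtype := by
    rw [Polynomial.map_prod, conjPoly]
    simp
  rw [h, Polynomial.coeff_map]
  exact SetLike.coe_mem _

omit [Γ.FiniteIndex] in
theorem conjPoly_coeff_smul (f : F) (i : ℕ) (γ : SL(2, ℤ)) (τ : ℍ) :
    (M.conjPoly f).coeff i (γ • τ) = (M.conjPoly f).coeff i τ := by
  have key : ∀ z : ℍ, (M.conjPoly f).coeff i z =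
      (∏ q : SL(2, ℤ) ⧸ Γ, (Polynomial.X - Polynomial.C (M.conjFun f q z))).coeff i := by
    intro z
    have := Polynomial.coeff_map (Pi.evalRingHom (fun _ : ℍ => ℂ) z) (p := M.conjPoly f) i
    rw [conjPoly, Polynomial.map_prod] at this
    simpa [conjPoly] using this.symm
  rw [key, key]
  congr 1
  refine (Fintype.prod_equiv (MulAction.toPerm γ⁻¹) _ _ fun q => ?_)
  simp only [MulAction.toPerm_apply]
  rw [M.conjFun_smul, inv_inv]

omit [Γ.FiniteIndex] in
theorem conjPoly_eval_self (f : F) : (M.conjPoly f).eval (M.ev f) = 0 := by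
  rw [conjPoly, Polynomial.eval_prod]
  refine Finset.prod_eq_zero (Finset.mem_univ ((1 : SL(2, ℤ)) : SL(2, ℤ) ⧸ Γ)) ?_
  rw [Polynomial.eval_sub, Polynomial.eval_X, Polynomial.eval_C, sub_eq_zero]
  funext τ
  rw [conjFun_mk, inv_one, one_smul]

/-- Functions meromorphic on `ℍ` with an expansion at infinity. -/
def qSubring : Subring (ℍ → ℂ) where
  carrier := {u | MeroH u ∧ ∃ h : ℕ, 0 < h ∧ ∃ x, HasQExp h u x}
  one_mem' := ⟨meroH_const 1, 1, one_pos, _, HasQExp.one⟩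
  zero_mem' := ⟨meroH_const 0, 1, one_pos, _, HasQExp.zero⟩
  neg_mem' := by
    rintro u ⟨hu, h, hh, x, hx⟩
    exact ⟨meroH_neg hu, h, hh, _, hx.neg⟩
  mul_mem' := by
    rintro u v ⟨hu, h, hh, x, hx⟩ ⟨hv, k, hk, y, hy⟩
    haveI : NeZero h := ⟨hh.ne'⟩
    haveI : NeZero k := ⟨hk.ne'⟩
    have hy' := hy.expand_period h
    rw [mul_comm k h] at hy'
    exact ⟨meroH_mul hu hv, h * k, Nat.mul_pos hh hk, _, (hx.expand_period k).mul hy'⟩
  add_mem' := by
    rintro u v ⟨hu, h, hh, x, hx⟩ ⟨hv, k, hk, y, hy⟩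
    haveI : NeZero h := ⟨hh.ne'⟩
    haveI : NeZero k := ⟨hk.ne'⟩
    have hy' := hy.expand_period h
    rw [mul_comm k h] at hy'
    exact ⟨meroH_add hu hv, h * k, Nat.mul_pos hh hk, _, (hx.expand_period k).add hy'⟩

/-- Functions with no pole at `τ₀`. -/
def regularSubring (τ₀ : ℍ) : Subring (ℍ → ℂ) where
  carrier := {u | MeroH u ∧ 0 ≤ ordH u τ₀}
  one_mem' := ⟨meroH_const 1, by
    classical
    rw [ordH, show ((1 : ℍ → ℂ) ∘ ofComplex) = fun _ => (1 : ℂ) from rfl,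
      meromorphicOrderAt_const, if_neg one_ne_zero]⟩
  zero_mem' := ⟨meroH_const 0, by
    classical
    rw [ordH, show ((0 : ℍ → ℂ) ∘ ofComplex) = fun _ => (0 : ℂ) from rfl,
      meromorphicOrderAt_const, if_pos rfl]
    exact le_top⟩
  neg_mem' := by
    rintro u ⟨hu, hu'⟩
    refine ⟨meroH_neg hu, ?_⟩
    rw [ordH, show ((-u) ∘ ofComplex) = -(u ∘ ofComplex) from rfl, ← meromorphicOrderAt_neg]
    exact hu'
  mul_mem' := by
    rintro u v ⟨hu, hu'⟩ ⟨hv, hv'⟩
    refine ⟨meroH_mul hu hv, ?_⟩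
    rw [ordH, show ((u * v) ∘ ofComplex) = (u ∘ ofComplex) * (v ∘ ofComplex) from rfl,
      meromorphicOrderAt_mul (hu _ τ₀.im_pos) (hv _ τ₀.im_pos)]
    exact add_nonneg hu' hv'
  add_mem' := by
    rintro u v ⟨hu, hu'⟩ ⟨hv, hv'⟩
    exact ⟨meroH_add hu hv, (le_min hu' hv').trans
      (meromorphicOrderAt_add (hu _ τ₀.im_pos) (hv _ τ₀.im_pos))⟩

/-- Functions bounded at infinity. -/
def boundedSubring : Subring (ℍ → ℂ) := (boundedAtImInftySubalgebra ℂ).toSubring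

omit [Γ.FiniteIndex] in
theorem isLevelOne_coeff (f : F) (i : ℕ) : IsLevelOne ((M.conjPoly f).coeff i) := by
  obtain ⟨h1, h2⟩ := M.conjPoly_coeff_mem f qSubring
    (fun q => ⟨M.meroH_conjFun f q, M.exists_hasQExp_conjFun f q⟩) i
  exact ⟨h1, M.conjPoly_coeff_smul f i, h2⟩

omit [Γ.FiniteIndex] in
theorem equation_of_fractions (f : F) (D P : Fin (Fintype.card (SL(2, ℤ) ⧸ Γ)) → ℂ[X])
    (h : ∀ i : Fin (Fintype.card (SL(2, ℤ) ⧸ Γ)), EqPunct ((M.conjPoly f).coeff (i : ℕ) * polyJ (D i)) (polyJ (P i))) :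
    Polynomial.aeval M.jF (∏ i, D i) * f ^ Fintype.card (SL(2, ℤ) ⧸ Γ) +
      ∑ i, Polynomial.aeval M.jF (P i * ∏ j ∈ Finset.univ.erase i, D j) * f ^ (i : ℕ) = 0 := by
  classical
  by_contra hne
  apply M.not_eqPunct_zero hne
  have hroot : M.ev f ^ (Fintype.card (SL(2, ℤ) ⧸ Γ)) + ∑ i : Fin (Fintype.card (SL(2, ℤ) ⧸ Γ)), (M.conjPoly f).coeff (i : ℕ) * M.ev f ^ (i : ℕ) = 0 := by
    have h0 := M.conjPoly_eval_self f
    rw [Polynomial.eval_eq_sum_range, M.natDegree_conjPoly, Finset.sum_range_succ,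
      show (M.conjPoly f).coeff (Fintype.card (SL(2, ℤ) ⧸ Γ)) = 1 from by
        rw [← M.natDegree_conjPoly f]; exact (M.conjPoly_monic f).coeff_natDegree,
      one_mul, Finset.sum_range, add_comm] at h0
    exact h0
  have key : EqPunct
      (M.ev (Polynomial.aeval M.jF (∏ i, D i) * f ^ (Fintype.card (SL(2, ℤ) ⧸ Γ)) +
        ∑ i, Polynomial.aeval M.jF (P i * ∏ j ∈ Finset.univ.erase i, D j) * f ^ (i : ℕ)))
      (polyJ (∏ i, D i) * M.ev f ^ (Fintype.card (SL(2, ℤ) ⧸ Γ)) +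
        ∑ i : Fin (Fintype.card (SL(2, ℤ) ⧸ Γ)), polyJ (P i * ∏ j ∈ Finset.univ.erase i, D j) * M.ev f ^ (i : ℕ)) :=
    (M.ev_add _ _).trans (eqPunct_add
      ((M.ev_mul _ _).trans (eqPunct_mul (M.ev_aeval_jF _) (M.ev_pow _ _)))
      ((M.ev_sum _ _).trans (eqPunct_sum fun i _ =>
        (M.ev_mul _ _).trans (eqPunct_mul (M.ev_aeval_jF _) (M.ev_pow _ _)))))
  refine key.trans ?_
  have h2 : EqPunct
      (polyJ (∏ i, D i) * M.ev f ^ (Fintype.card (SL(2, ℤ) ⧸ Γ)) +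
        ∑ i : Fin (Fintype.card (SL(2, ℤ) ⧸ Γ)), polyJ (P i * ∏ j ∈ Finset.univ.erase i, D j) * M.ev f ^ (i : ℕ))
      (polyJ (∏ i, D i) * M.ev f ^ (Fintype.card (SL(2, ℤ) ⧸ Γ)) +
        ∑ i : Fin (Fintype.card (SL(2, ℤ) ⧸ Γ)), ((M.conjPoly f).coeff (i : ℕ) * polyJ (D i) *
          polyJ (∏ j ∈ Finset.univ.erase i, D j)) * M.ev f ^ (i : ℕ)) :=
    eqPunct_add (EqPunct.refl _) (eqPunct_sum fun i _ => eqPunct_mul
      (by rw [map_mul]; exact eqPunct_mul (h i).symm (EqPunct.refl _)) (EqPunct.refl _))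
  refine h2.trans (eqPunct_of_eq ?_)
  have h3 : ∀ i : Fin (Fintype.card (SL(2, ℤ) ⧸ Γ)), (M.conjPoly f).coeff (i : ℕ) * polyJ (D i) *
      polyJ (∏ j ∈ Finset.univ.erase i, D j) * M.ev f ^ (i : ℕ) =
      polyJ (∏ j, D j) * ((M.conjPoly f).coeff (i : ℕ) * M.ev f ^ (i : ℕ)) := by
    intro i
    rw [← Finset.mul_prod_erase Finset.univ D (Finset.mem_univ i), map_mul]
    ring
  rw [Finset.sum_congr rfl fun i _ => h3 i, ← Finset.mul_sum, ← mul_add, hroot, mul_zero]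

omit [Γ.FiniteIndex] in
/-- A function with no pole over `t = j τ₀` is integral over the local ring of `ℂ(j)` at `t`. -/
theorem exists_equation_at (f : F) (τ₀ : ℍ) (hreg : ∀ q, 0 ≤ ordH (M.conjFun f q) τ₀) :
    ∃ (D : ℂ[X]) (P : Fin (Fintype.card (SL(2, ℤ) ⧸ Γ)) → ℂ[X]), D.eval (jfun τ₀) ≠ 0 ∧
      Polynomial.aeval M.jF D * f ^ Fintype.card (SL(2, ℤ) ⧸ Γ) +
        ∑ i, Polynomial.aeval M.jF (P i) * f ^ (i : ℕ) = 0 := by
  classical
  have hsi : ∀ i : Fin (Fintype.card (SL(2, ℤ) ⧸ Γ)), ∃ D P : ℂ[X], D.eval (jfun τ₀) ≠ 0 ∧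
      EqPunct ((M.conjPoly f).coeff (i : ℕ) * polyJ D) (polyJ P) := fun i =>
    (M.isLevelOne_coeff f i).exists_fraction_at
      (M.conjPoly_coeff_mem f (regularSubring τ₀) (fun q => ⟨M.meroH_conjFun f q, hreg q⟩) i).2
  choose D P hD hDP using hsi
  refine ⟨∏ i, D i, fun i => P i * ∏ j ∈ Finset.univ.erase i, D j, ?_,
    M.equation_of_fractions f D P hDP⟩
  rw [Polynomial.eval_prod]
  exact Finset.prod_ne_zero_iff.2 fun i _ => hD i

omit [Γ.FiniteIndex] in
/-- A function with no pole over `∞` is integral over the local ring of `ℂ(j)` at `∞`. -/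
theorem exists_equation_infty (f : F) (hb : ∀ q, IsBoundedAtImInfty (M.conjFun f q)) :
    ∃ (D : ℂ[X]) (P : Fin (Fintype.card (SL(2, ℤ) ⧸ Γ)) → ℂ[X]), D ≠ 0 ∧
      (∀ i, (P i).natDegree ≤ D.natDegree) ∧
      Polynomial.aeval M.jF D * f ^ Fintype.card (SL(2, ℤ) ⧸ Γ) +
        ∑ i, Polynomial.aeval M.jF (P i) * f ^ (i : ℕ) = 0 := by
  classical
  have hsi : ∀ i : Fin (Fintype.card (SL(2, ℤ) ⧸ Γ)), ∃ D P : ℂ[X], D ≠ 0 ∧
      P.natDegree ≤ D.natDegree ∧
      EqPunct ((M.conjPoly f).coeff (i : ℕ) * polyJ D) (polyJ P) := fun i =>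
    (M.isLevelOne_coeff f i).exists_fraction_infty
      (M.conjPoly_coeff_mem f boundedSubring hb i)
  choose D P hD hdeg hDP using hsi
  refine ⟨∏ i, D i, fun i => P i * ∏ j ∈ Finset.univ.erase i, D j,
    Finset.prod_ne_zero_iff.2 fun i _ => hD i, fun i => ?_, M.equation_of_fractions f D P hDP⟩
  refine Polynomial.natDegree_mul_le.trans ?_
  rw [Polynomial.natDegree_prod _ _ fun j _ => hD j,
    Polynomial.natDegree_prod _ _ fun j _ => hD j,
    ← Finset.add_sum_erase Finset.univ (fun j => (D j).natDegree) (Finset.mem_univ i)]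
  exact Nat.add_le_add_right (hdeg i) _

end Model

end Fermat.Agent.Places
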