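/-
The fibres of `j` on the places of a model: at finite `t = j τ₀` they are the orbits of the
stabiliser of `τ₀` on the cosets, at `∞` the orbits of `T`.
-/
import Fermat.Agent.Places.Elliptic
import Fermat.Agent.Places.Symm
import Fermat.Agent.Places.Fiber
import Fermat.Agent.Curve.BasicFunctionField
import Fermat.Prelude.Def_AlgebraicCurve_IsCurveOver

set_option autoImplicit false

noncomputable section

open Filter UpperHalfPlane IntermediateField AlgebraicCurve ModularCurve Fermat.Agent.ModFun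
  Fermat.Agent.Curve
open scoped Topology MatrixGroups Polynomial
open ModularGroup (S T)

namespace Fermat.Agent.Places

variable {K F : Type*} [Field K] [Field F] [Algebra K F] (v : Place K F)

theorem aeval_ord_nonneg {x : F} (hx : 0 ≤ v.ord x) (P : K[X]) :
    0 ≤ v.ord (Polynomial.aeval x P) := by
  refine ord_nonneg_of_mem v ?_
  have hmem := mem_of_ord_nonneg v hx
  induction P using Polynomial.induction_on' with
  | add p q hp hq => rw [map_add]; exact add_mem hp hq
  | monomial n a =>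
    rw [Polynomial.aeval_monomial]
    exact mul_mem (v.algebraMap_mem' a) (pow_mem hmem n)

theorem aeval_ord_eq_zero {x : F} {t : K} (hx : 0 < v.ord (x - algebraMap K F t)) {D : K[X]}
    (hD : D.eval t ≠ 0) : Polynomial.aeval x D ≠ 0 ∧ v.ord (Polynomial.aeval x D) = 0 := by
  set y := x - algebraMap K F t with hy
  have hxnn : 0 ≤ v.ord x := by
    have : x = y + algebraMap K F t := (sub_add_cancel _ _).symm
    rw [this]
    exact ord_nonneg_of_mem v (add_mem (mem_of_ord_nonneg v hx.le) (v.algebraMap_mem' t))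
  obtain ⟨E, hE⟩ := Polynomial.X_sub_C_dvd_sub_C_eval (a := t) (p := D)
  have hsplit : Polynomial.aeval x D = algebraMap K F (D.eval t) + y * Polynomial.aeval x E := by
    have : D = Polynomial.C (D.eval t) + (Polynomial.X - Polynomial.C t) * E := by
      rw [← hE]; ring
    conv_lhs => rw [this]
    simp [hy]
  have hc : algebraMap K F (D.eval t) ≠ 0 := by simpa using hD
  have hord : v.ord (algebraMap K F (D.eval t) + y * Polynomial.aeval x E) = 0 := by
    rw [ord_add_eq_left v hc, ord_algebraMap]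
    intro hne
    have h1 := mul_ne_zero_iff.1 hne
    rw [ord_algebraMap, v.ord_mul h1.1 h1.2]
    have := aeval_ord_nonneg v hxnn E
    omega
  refine ⟨fun h0 => ?_, hsplit ▸ hord⟩
  rw [hsplit] at h0
  have h1 : y * Polynomial.aeval x E = -algebraMap K F (D.eval t) := by linear_combination h0
  have hne : y * Polynomial.aeval x E ≠ 0 := by rw [h1]; exact neg_ne_zero.2 hc
  have h2 := congrArg v.ord h1
  have h3 := mul_ne_zero_iff.1 hne
  rw [ord_neg, ord_algebraMap, v.ord_mul h3.1 h3.2] at h2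
  have := aeval_ord_nonneg v hxnn E
  omega

theorem le_ord_aeval {x : F} (hx : v.ord x < 0) {P : K[X]} {m : ℕ} (hm : P.natDegree ≤ m)
    (hP : Polynomial.aeval x P ≠ 0) : (m : ℤ) * v.ord x ≤ v.ord (Polynomial.aeval x P) := by
  rw [Polynomial.aeval_eq_sum_range] at hP ⊢
  refine le_ord_sum v _ _ _ (fun i hi hne => ?_) hP
  rw [Algebra.smul_def] at hne ⊢
  rw [v.ord_mul (left_ne_zero_of_mul hne) (right_ne_zero_of_mul hne), ord_algebraMap, ord_pow,
    zero_add]
  have : i ≤ m := (Nat.lt_succ_iff.1 (Finset.mem_range.1 hi)).trans hm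
  exact mul_le_mul_of_nonpos_right (by exact_mod_cast this) hx.le

theorem aeval_ord_eq_natDegree {x : F} (hx : v.ord x < 0) {P : K[X]} (hP : P ≠ 0) :
    Polynomial.aeval x P ≠ 0 ∧ v.ord (Polynomial.aeval x P) = (P.natDegree : ℤ) * v.ord x := by
  have hx0 : x ≠ 0 := fun h => by rw [h, Place.ord_zero] at hx; exact lt_irrefl _ hx
  set n := P.natDegree
  have hlc : algebraMap K F P.leadingCoeff ≠ 0 := by simpa using hP
  have hlead : algebraMap K F P.leadingCoeff * x ^ n ≠ 0 := mul_ne_zero hlc (pow_ne_zero _ hx0)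
  have hlord : v.ord (algebraMap K F P.leadingCoeff * x ^ n) = (n : ℤ) * v.ord x := by
    rw [v.ord_mul hlc (pow_ne_zero _ hx0), ord_algebraMap, ord_pow, zero_add]
  have hsplit : Polynomial.aeval x P =
      algebraMap K F P.leadingCoeff * x ^ n + Polynomial.aeval x P.eraseLead := by
    have h := congrArg (Polynomial.aeval x) P.eraseLead_add_C_mul_X_pow
    simp only [map_add, map_mul, Polynomial.aeval_C, map_pow, Polynomial.aeval_X] at h
    rw [← h]
    ring
  have hlt : Polynomial.aeval x P.eraseLead ≠ 0 →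
      (n : ℤ) * v.ord x < v.ord (Polynomial.aeval x P.eraseLead) := by
    intro hne
    rcases Nat.eq_zero_or_pos n with h0 | h0
    · exfalso
      apply hne
      have he : P.eraseLead = 0 := by
        rcases Polynomial.eraseLead_natDegree_lt_or_eraseLead_eq_zero P with h | h
        · exact absurd h (by rw [show P.natDegree = 0 from h0]; omega)
        · exact h
      rw [he, map_zero]
    · have hdeg : P.eraseLead.natDegree ≤ n - 1 := Polynomial.eraseLead_natDegree_le P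
      refine lt_of_lt_of_le ?_ (le_ord_aeval v hx hdeg hne)
      rw [Nat.cast_sub h0, Nat.cast_one, sub_mul, one_mul]
      omega
  have hord : v.ord (Polynomial.aeval x P) = (n : ℤ) * v.ord x := by
    rw [hsplit, ord_add_eq_left v hlead (fun hne => by rw [hlord]; exact hlt hne), hlord]
  refine ⟨fun h0 => ?_, hord⟩
  rw [h0, Place.ord_zero] at hord
  rcases Nat.eq_zero_or_pos n with hn | hn
  · rw [hsplit] at h0
    have he : P.eraseLead = 0 := by
      rcases Polynomial.eraseLead_natDegree_lt_or_eraseLead_eq_zero P with h | h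
      · exact absurd h (by rw [show P.natDegree = 0 from hn]; omega)
      · exact h
    rw [he, map_zero, add_zero] at h0
    exact hlead h0
  · have : (n : ℤ) * v.ord x < 0 := mul_neg_of_pos_of_neg (by exact_mod_cast hn) hx
    omega

end Fermat.Agent.Places

namespace Fermat.Agent.Places

variable {Γ : Subgroup SL(2, ℤ)} [Γ.FiniteIndex] {F : Type*} [Field F] [Algebra ℂ F]

omit [Γ.FiniteIndex] in
/-- The stabiliser of a coset in the stabiliser of a point. -/
theorem card_stabilizer_coset (τ₀ : ℍ) (g : SL(2, ℤ)) :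
    Nat.card (MulAction.stabilizer (MulAction.stabilizer SL(2, ℤ) τ₀) (g : SL(2, ℤ) ⧸ Γ)) =
      Nat.card (MulAction.stabilizer Γ (g⁻¹ • τ₀)) := by
  refine Nat.card_congr
    { toFun := fun h => ⟨⟨g⁻¹ * h.1.1 * g, ?_⟩, ?_⟩
      invFun := fun γ => ⟨⟨g * γ.1.1 * g⁻¹, ?_⟩, ?_⟩
      left_inv := fun h => ?_
      right_inv := fun γ => ?_ }
  · have h1 : h.1.1 • (g : SL(2, ℤ) ⧸ Γ) = g := h.2
    rw [MulAction.Quotient.smul_coe, eq_comm, QuotientGroup.eq, smul_eq_mul] at h1
    rwa [mul_assoc]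
  · have h1 : h.1.1 • τ₀ = τ₀ := h.1.2
    show (g⁻¹ * h.1.1 * g) • g⁻¹ • τ₀ = g⁻¹ • τ₀
    rw [smul_smul, mul_inv_cancel_right, mul_smul, h1]
  · have h1 : γ.1.1 • g⁻¹ • τ₀ = g⁻¹ • τ₀ := γ.2
    show (g * γ.1.1 * g⁻¹) • τ₀ = τ₀
    rw [mul_smul, mul_smul, h1, smul_inv_smul]
  · show (g * γ.1.1 * g⁻¹) • (g : SL(2, ℤ) ⧸ Γ) = g
    rw [MulAction.Quotient.smul_coe, eq_comm, QuotientGroup.eq, smul_eq_mul]
    simpa [mul_assoc] using γ.1.2
  · apply Subtype.ext; apply Subtype.ext
    simp [mul_assoc]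
  · apply Subtype.ext; apply Subtype.ext
    simp [mul_assoc]

omit [Γ.FiniteIndex] in
theorem card_orbit_mul_ellPeriod (hΓ : (-1 : SL(2, ℤ)) ∈ Γ) (τ₀ : ℍ) (q : SL(2, ℤ) ⧸ Γ) :
    Nat.card (MulAction.orbit (MulAction.stabilizer SL(2, ℤ) τ₀) q) *
      ellPeriod Γ (q.out⁻¹ • τ₀) = ellPeriod ⊤ τ₀ := by
  have h1 := Subgroup.card_mul_index
    (MulAction.stabilizer (MulAction.stabilizer SL(2, ℤ) τ₀) q)
  rw [MulAction.index_stabilizer, ← Nat.card_coe_set_eq] at h1
  have h2 := card_stabilizer_coset (Γ := Γ) τ₀ q.out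
  rw [QuotientGroup.out_eq', natCard_stabilizer_eq, ← two_mul_ellPeriod hΓ] at h2
  rw [h2, ← two_mul_ellPeriod_top] at h1
  linarith

namespace Model

variable (M : Model Γ F)

include M in
theorem isFunctionFieldOne : IsFunctionFieldOne ℂ F := by
  haveI : Module.Finite ℂ⟮M.jF⟯ F := Module.finite_of_finrank_pos (by
    rw [M.finrank_eq]; exact Nat.pos_of_ne_zero Subgroup.FiniteIndex.index_ne_zero)
  exact IsFunctionFieldOne.of_finite M.transcendental_jF

include M in
theorem deg_eq_one (v : Place ℂ F) : v.deg = 1 :=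
  haveI := M.isFunctionFieldOne
  haveI := finite_residueField (K := ℂ) v
  v.deg_eq_one_of_isAlgClosed_of_finite

omit [Γ.FiniteIndex] in
theorem jF_sub_ne_zero (c : ℂ) : M.jF - algebraMap ℂ F c ≠ 0 :=
  sub_ne_zero.2 (M.jF_ne_algebraMap c)

omit [Γ.FiniteIndex] in
theorem adjoin_jF_sub (c : ℂ) : ℂ⟮M.jF - algebraMap ℂ F c⟯ = ℂ⟮M.jF⟯ := by
  apply le_antisymm <;> rw [IntermediateField.adjoin_simple_le_iff]
  · exact sub_mem (mem_adjoin_simple_self ℂ _) (IntermediateField.algebraMap_mem _ c)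
  · simpa using add_mem (mem_adjoin_simple_self ℂ (M.jF - algebraMap ℂ F c))
      (IntermediateField.algebraMap_mem ℂ⟮M.jF - algebraMap ℂ F c⟯ c)

omit [Γ.FiniteIndex] in
theorem adjoin_jF_inv : ℂ⟮M.jF⁻¹⟯ = ℂ⟮M.jF⟯ := by
  apply le_antisymm <;> rw [IntermediateField.adjoin_simple_le_iff]
  · exact inv_mem (mem_adjoin_simple_self ℂ _)
  · simpa using inv_mem (mem_adjoin_simple_self ℂ M.jF⁻¹)

include M in
theorem exists_zeros {x : F} (hx : ℂ⟮x⟯ = ℂ⟮M.jF⟯) (ht : Transcendental ℂ x) :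
    ∃ Z : Finset (Place ℂ F), (∀ v, v ∈ Z ↔ 0 < v.ord x) ∧
      ∑ v ∈ Z, v.ord x = (Γ.index : ℤ) := by
  classical
  haveI := M.isFunctionFieldOne
  have hfin : {v : Place ℂ F | 0 < v.ord x}.Finite :=
    (finite_setOf_ord_ne_zero (K := ℂ) x).subset fun v (hv : 0 < v.ord x) => hv.ne'
  refine ⟨hfin.toFinset, fun v => by simp, ?_⟩
  have h := degree_zeroDivisor (K := ℂ) ht
  rw [hx, M.finrank_eq] at h
  rw [← h]
  show _ = Finsupp.liftAddHom _ _
  rw [Finsupp.liftAddHom_apply]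
  simp only [AddMonoidHom.mulRight_apply, M.deg_eq_one, Nat.cast_one, mul_one]
  rw [Finsupp.sum]
  refine Finset.sum_congr ?_ fun v hv => ?_
  · ext v
    simp [Finsupp.mem_support_iff]
  · simp at hv
    simp [hv.le]

theorem pointVal_smul {γ : SL(2, ℤ)} (hγ : γ ∈ Γ) (τ : ℍ) :
    M.pointVal (γ • τ) = M.pointVal τ := by
  have h : ∀ f, (ordH (M.ev f) (γ • τ)).untop₀ = (ordH (M.ev f) τ).untop₀ := by
    intro f
    rw [← ordH_comp_smul, show (fun z => M.ev f (γ • z)) = M.ev f from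
      funext fun z => M.smul_eq f γ hγ z]
  simp only [pointVal, IntVal.mk.injEq]
  exact funext h

omit [Γ.FiniteIndex] in
theorem ordH_jF_sub (τ : ℍ) (t : ℂ) (ht : jfun τ = t) :
    (ordH (M.ev (M.jF - algebraMap ℂ F t)) τ).untop₀ = (ellPeriod ⊤ τ : ℕ) := by
  subst ht
  rw [(M.ev_jF_sub _).ordH_eq τ, ordH_jfun_sub]
  rfl

/-- The fibre over `j τ₀`. -/
theorem fiber_point (τ₀ : ℍ) :
    let Ω := MulAction.orbitRel.Quotient (MulAction.stabilizer SL(2, ℤ) τ₀) (SL(2, ℤ) ⧸ Γ)
    let pt : Ω → ℍ := fun a => (Quotient.out a : SL(2, ℤ) ⧸ Γ).out⁻¹ • τ₀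
    (∀ a, (M.pointVal (pt a)).index = ellPeriod Γ (pt a)) ∧
      Function.Injective (fun a => M.placeAt (pt a)) ∧
      (∀ v : Place ℂ F, 0 < v.ord (M.jF - algebraMap ℂ F (jfun τ₀)) →
        ∃ a, M.placeAt (pt a) = v) ∧
      ∀ a, (M.placeAt (pt a)).ord (M.jF - algebraMap ℂ F (jfun τ₀)) =
        Nat.card (MulAction.orbit (MulAction.stabilizer SL(2, ℤ) τ₀)
          (Quotient.out a : SL(2, ℤ) ⧸ Γ)) := by
  classical
  intro Ω pt
  haveI : Finite (SL(2, ℤ) ⧸ Γ) := Subgroup.finite_quotient_of_finiteIndex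
  haveI : Fintype (SL(2, ℤ) ⧸ Γ) := Fintype.ofFinite _
  haveI : Fintype Ω := Fintype.ofFinite _
  set x := M.jF - algebraMap ℂ F (jfun τ₀) with hxdef
  obtain ⟨Z, hZ, hsum⟩ := M.exists_zeros (M.adjoin_jF_sub (jfun τ₀))
    (fun h => M.transcendental_jF (by simpa using h.add (isAlgebraic_algebraMap (R := ℂ) (A := F) (jfun τ₀))))
  refine fiber_structure (fun a => M.pointVal (pt a))
    (fun a => Nat.card (MulAction.orbit (MulAction.stabilizer SL(2, ℤ) τ₀)
      (Quotient.out a : SL(2, ℤ) ⧸ Γ)))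
    (fun a => ellPeriod Γ (pt a)) (M.jF_sub_ne_zero _) Z hZ ?_ ?_ ?_ ?_ ?_ ?_
  · intro a
    haveI : Nonempty (MulAction.orbit (MulAction.stabilizer SL(2, ℤ) τ₀)
        (Quotient.out a : SL(2, ℤ) ⧸ Γ)) := ⟨⟨_, MulAction.mem_orbit_self _⟩⟩
    exact Nat.card_pos
  · exact fun a => ellPeriod_pos M.neg_one_mem _
  · intro a
    rw [card_orbit_mul_ellPeriod M.neg_one_mem,
      ← ellPeriod_smul (Subgroup.mem_top (Quotient.out a : SL(2, ℤ) ⧸ Γ).out⁻¹) τ₀]
    exact M.ordH_jF_sub (pt a) _ (jfun_smul _ _)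
  · intro a f hf
    obtain ⟨k, hk⟩ := WithTop.ne_top_iff_exists.1 (M.ordH_ev_ne_top hf (pt a))
    show _ ∣ (ordH (M.ev f) (pt a)).untop₀
    rw [← hk, WithTop.untop₀_coe]
    exact ellPeriod_dvd_ordH M.neg_one_mem (M.mero f) (M.smul_eq f) hk.symm
  · rw [hsum, ← Nat.cast_sum, Nat.cast_le]
    refine le_of_eq ?_
    rw [Subgroup.index_eq_card, Nat.card_congr (MulAction.selfEquivSigmaOrbits
      (MulAction.stabilizer SL(2, ℤ) τ₀) (SL(2, ℤ) ⧸ Γ)), Nat.card_sigma]
  · intro f hf hnn v hv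
    have hreg : ∀ q, 0 ≤ ordH (M.conjFun f q) τ₀ := by
      intro q
      set a : Ω := Quotient.mk'' q with ha
      obtain ⟨s, hs⟩ : q ∈ MulAction.orbit (MulAction.stabilizer SL(2, ℤ) τ₀)
          (Quotient.out a : SL(2, ℤ) ⧸ Γ) := by
        have h := Quotient.out_eq a
        exact MulAction.orbitRel_apply.1 (Quotient.exact h.symm)
      have h1 : M.conjFun f q = fun τ => M.conjFun f (Quotient.out a : SL(2, ℤ) ⧸ Γ)
          (s.1⁻¹ • τ) := by
        funext τ
        rw [← M.conjFun_smul]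
        exact congrArg (fun q => M.conjFun f q τ) hs.symm
      rw [h1, ordH_comp_smul, show s.1⁻¹ • τ₀ = τ₀ from inv_smul_eq_iff.2 s.2.symm]
      have h2 : M.conjFun f (Quotient.out a : SL(2, ℤ) ⧸ Γ) =
          fun τ => M.ev f ((Quotient.out a : SL(2, ℤ) ⧸ Γ).out⁻¹ • τ) := by
        funext τ
        conv_lhs => rw [← QuotientGroup.out_eq' (Quotient.out a : SL(2, ℤ) ⧸ Γ)]
        rfl
      rw [h2, ordH_comp_smul]
      exact WithTop.untop₀_nonneg.1 (hnn a)
    obtain ⟨D, P, hD, heq⟩ := M.exists_equation_at f τ₀ hreg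
    have hvx : 0 < v.ord x := (hZ v).1 hv
    obtain ⟨hDne, hD0⟩ := aeval_ord_eq_zero v hvx hD
    have hjnn : 0 ≤ v.ord M.jF := by
      have : M.jF = x + algebraMap ℂ F (jfun τ₀) := (sub_add_cancel _ _).symm
      rw [this]
      exact ord_nonneg_of_mem v
        (add_mem (mem_of_ord_nonneg v hvx.le) (v.algebraMap_mem' _))
    refine ord_nonneg_of_equation v hDne (fun i _ => ?_) heq
    rw [hD0]
    exact aeval_ord_nonneg v hjnn (P i)

theorem cuspVal_w_smul (g : SL(2, ℤ)) (k : ℤ) {γ : SL(2, ℤ)} (hγ : γ ∈ Γ) (f : F) :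
    (M.cuspVal (T ^ k * g * γ)).w f = (M.cuspVal g).w f := by
  show (M.cuspExp _ f).order = (M.cuspExp g f).order
  set g' := T ^ k * g * γ with hg'
  have hq : (g' : SL(2, ℤ) ⧸ Γ) = T ^ k • (g : SL(2, ℤ) ⧸ Γ) := by
    rw [MulAction.Quotient.smul_coe, QuotientGroup.eq, hg', smul_eq_mul]
    simpa [mul_assoc] using inv_mem hγ
  have hw : cuspWidth Γ g' = cuspWidth Γ g := by
    apply Int.natCast_inj.1
    apply Int.dvd_antisymm (Int.natCast_nonneg _) (Int.natCast_nonneg _)
    · rw [← T_zpow_smul_eq_iff, hq, smul_smul, ← zpow_add, add_comm, zpow_add, mul_smul,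
        (T_zpow_smul_eq_iff g _).2 (dvd_refl _)]
    · rw [← T_zpow_smul_eq_iff g]
      have h1 := (T_zpow_smul_eq_iff g' _).2 (dvd_refl (cuspWidth Γ g' : ℤ))
      rw [hq, smul_smul, ← zpow_add, add_comm, zpow_add, mul_smul] at h1
      exact MulAction.injective (T ^ k) h1
  set w := cuspWidth Γ g with hwdef
  -- the expansion at `g'` is a twist of the one at `g`
  set u : ℂˣ := Units.mk0 (Function.Periodic.qParam (w : ℝ) ((-k : ℤ) : ℂ)) (Complex.exp_ne_zero _)
    with hu
  have hx := M.hasQExp_cuspExp g f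
  have hx' : HasQExp w (fun τ => M.ev f (g'⁻¹ • τ)) (twist u (M.cuspExp g f)) := by
    obtain ⟨A, hA⟩ := (atImInfty_mem _).1 hx
    refine (atImInfty_mem _).2 ⟨A, fun τ hτ => ?_⟩
    have h1 := hA (T ^ (-k) • τ) (by rwa [ModularGroup.im_T_zpow_smul])
    have h2 : M.ev f (g'⁻¹ • τ) = M.ev f (g⁻¹ • T ^ (-k) • τ) := by
      rw [hg', mul_inv_rev, mul_inv_rev, mul_smul, mul_smul, ← zpow_neg,
        M.smul_eq f _ (inv_mem hγ)]
    show HasSum _ (M.ev f (g'⁻¹ • τ))
    rw [h2]
    refine h1.congr_fun fun m => ?_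
    rw [twist_coeff, mul_comm ((u : ℂ) ^ m), mul_assoc, ← mul_zpow]
    congr 2
    rw [hu, Units.val_mk0, modular_T_zpow_smul, coe_vadd, Function.Periodic.qParam,
      Function.Periodic.qParam, Function.Periodic.qParam, ← Complex.exp_add]
    congr 1
    push_cast
    ring
  have hexp : M.cuspExp g' f = twist u (M.cuspExp g f) := by
    have := M.hasQExp_cuspExp g' f
    rw [hw] at this
    exact this.unique hx'
  rw [hexp]
  rcases eq_or_ne (M.cuspExp g f) 0 with h0 | h0
  · rw [h0, map_zero]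
  refine le_antisymm (HahnSeries.order_le_of_coeff_ne_zero ?_) ?_
  · rw [twist_coeff]
    exact mul_ne_zero (zpow_ne_zero _ u.ne_zero) (mt HahnSeries.coeff_order_eq_zero.1 h0)
  · have h1 : twist u (M.cuspExp g f) ≠ 0 := by
      intro h
      have h2 := congrArg (fun x => HahnSeries.coeff x (M.cuspExp g f).order) h
      simp only [twist_coeff, HahnSeries.coeff_zero] at h2
      exact mul_ne_zero (zpow_ne_zero _ u.ne_zero)
        (mt HahnSeries.coeff_order_eq_zero.1 h0) h2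
    have h3 := mt HahnSeries.coeff_order_eq_zero.1 h1
    rw [twist_coeff] at h3
    exact HahnSeries.order_le_of_coeff_ne_zero (right_ne_zero_of_mul h3)

theorem cuspVal_smul (g : SL(2, ℤ)) (k : ℤ) {γ : SL(2, ℤ)} (hγ : γ ∈ Γ) :
    M.cuspVal (T ^ k * g * γ) = M.cuspVal g := by
  have h : (M.cuspVal (T ^ k * g * γ)).w = (M.cuspVal g).w :=
    funext (M.cuspVal_w_smul g k hγ)
  simp only [cuspVal, IntVal.mk.injEq]
  exact h

/-- The fibre over `∞`. -/
theorem fiber_infty :
    let rep : CuspSet Γ → SL(2, ℤ) := fun a => (Quotient.out a : SL(2, ℤ) ⧸ Γ).out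
    (∀ a, (M.cuspVal (rep a)).index = 1) ∧
      Function.Injective (fun a => M.cuspPlace (rep a)) ∧
      (∀ v : Place ℂ F, 0 < v.ord M.jF⁻¹ → ∃ a, M.cuspPlace (rep a) = v) ∧
      ∀ a, (M.cuspPlace (rep a)).ord M.jF⁻¹ = cuspWidth Γ (rep a) := by
  classical
  intro rep
  haveI : Finite (SL(2, ℤ) ⧸ Γ) := Subgroup.finite_quotient_of_finiteIndex
  haveI : Fintype (SL(2, ℤ) ⧸ Γ) := Fintype.ofFinite _
  haveI : Fintype (CuspSet Γ) := Fintype.ofFinite _
  have hj0 : M.jF ≠ 0 := fun h => M.jF_ne_algebraMap 0 (by simpa using h)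
  obtain ⟨Z, hZ, hsum⟩ := M.exists_zeros M.adjoin_jF_inv
    (transcendental_inv M.transcendental_jF)
  refine fiber_structure (fun a => M.cuspVal (rep a)) (fun a => cuspWidth Γ (rep a))
    (fun _ => 1) (inv_ne_zero hj0) Z hZ ?_ ?_ ?_ ?_ ?_ ?_
  · exact fun a => cuspWidth_pos _
  · exact fun _ => one_pos
  · intro a
    rw [(M.cuspVal (rep a)).map_inv hj0, mul_one]
    show -(M.cuspExp (rep a) M.jF).order = _
    rw [M.order_cuspExp_jF, neg_neg]
  · intro a f _
    simp
  · rw [hsum, ← Nat.cast_sum, Nat.cast_le]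
    refine le_of_eq ?_
    rw [Subgroup.index_eq_card, Nat.card_congr (MulAction.selfEquivSigmaOrbits
      (Subgroup.zpowers T) (SL(2, ℤ) ⧸ Γ)), Nat.card_sigma]
    refine Finset.sum_congr rfl fun a _ => ?_
    refine (((Nat.card_congr (MulAction.orbitZPowersEquiv T
      (Quotient.out a : SL(2, ℤ) ⧸ Γ))).trans (Nat.card_zmod _)).trans ?_).symm
    rw [cuspWidth, QuotientGroup.out_eq']
  · intro f hf hnn v hv
    have hb : ∀ q, IsBoundedAtImInfty (M.conjFun f q) := by
      intro q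
      set a : CuspSet Γ := Quotient.mk'' q with ha
      obtain ⟨s, hs⟩ : q ∈ MulAction.orbit (Subgroup.zpowers T)
          (Quotient.out a : SL(2, ℤ) ⧸ Γ) :=
        MulAction.orbitRel_apply.1 (Quotient.exact (Quotient.out_eq a).symm)
      obtain ⟨k, hk⟩ := Subgroup.mem_zpowers_iff.1 s.2
      have hb0 : IsBoundedAtImInfty fun τ => M.ev f ((rep a)⁻¹ • τ) :=
        (M.hasQExp_cuspExp (rep a) f).isBoundedAtImInfty fun m hm => by
          by_contra hne
          have h1 := HahnSeries.order_le_of_coeff_ne_zero hne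
          have h2 : 0 ≤ (M.cuspExp (rep a) f).order := hnn a
          omega
      have h1 : M.conjFun f q = fun τ => M.ev f ((rep a)⁻¹ • T ^ (-k) • τ) := by
        funext τ
        have hq : q = T ^ k • (Quotient.out a : SL(2, ℤ) ⧸ Γ) := by
          rw [hk]; exact hs.symm
        rw [hq, M.conjFun_smul, ← zpow_neg]
        conv_lhs => rw [← QuotientGroup.out_eq' (Quotient.out a : SL(2, ℤ) ⧸ Γ)]
        rfl
      rw [h1]
      obtain ⟨B, A, hBA⟩ := isBoundedAtImInfty_iff.1 hb0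
      exact isBoundedAtImInfty_iff.2
        ⟨B, A, fun τ hτ => hBA _ (by rwa [ModularGroup.im_T_zpow_smul])⟩
    obtain ⟨D, P, hD, hdeg, heq⟩ := M.exists_equation_infty f hb
    have hjneg : v.ord M.jF < 0 := by
      have := (hZ v).1 hv
      rw [Place.ord_inv] at this
      omega
    obtain ⟨hDne, hDord⟩ := aeval_ord_eq_natDegree v hjneg hD
    refine ord_nonneg_of_equation v hDne (fun i hi => ?_) heq
    rw [hDord]
    exact le_ord_aeval v hjneg (hdeg i) hi

end Model

end Fermat.Agent.Places
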