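/-
The places of the function field of `Γ \ ℍ*` are its points: `placeEquiv`, the orders at points
and cusps, and the ramification over the `j`-line.
-/
import Fermat.Agent.Places.Fibres

set_option autoImplicit false

noncomputable section

open Filter UpperHalfPlane IntermediateField AlgebraicCurve ModularCurve Fermat.Agent.ModFun
  Fermat.Agent.Curve
open scoped Topology MatrixGroups
open ModularGroup (S T)

namespace Fermat.Agent.Places

/-- The value of a function without a pole. -/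
theorem ordH_sub_const_pos_iff {f : ℍ → ℂ} (hf : MeroH f) {τ : ℍ} (h : 0 ≤ ordH f τ) (c : ℂ) :
    0 < ordH (f - fun _ => c) τ ↔ nfH f τ = c := by
  have ha := analyticAt_nfH hf h
  have hm : MeromorphicAt ((f - fun _ => c) ∘ ofComplex) (τ : ℂ) :=
    meroH_sub hf (meroH_const c) _ τ.im_pos
  have hval : Tendsto ((f - fun _ => c) ∘ ofComplex) (𝓝[≠] (τ : ℂ)) (𝓝 (nfH f τ - c)) := by
    have h1 := ((ha.continuousAt.tendsto.sub_const c).mono_left
      (nhdsWithin_le_nhds (s := {(τ : ℂ)}ᶜ)))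
    rw [Function.comp_apply, ofComplex_apply] at h1
    exact h1.congr' ((eqPunct_sub (eqPunct_nfH hf) (EqPunct.refl fun _ => c)) τ)
  rw [ordH, ← tendsto_zero_iff_meromorphicOrderAt_pos hm]
  exact ⟨fun h0 => sub_eq_zero.1 (tendsto_nhds_unique hval h0),
    fun h0 => by rwa [h0, sub_self] at hval⟩

/-- Over an algebraically closed field of constants, a function without pole has a value. -/
theorem exists_const_ord_pos {K F : Type*} [Field K] [IsAlgClosed K] [Field F] [Algebra K F]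
    (v : Place K F) [Module.Finite K v.ResidueField] {f : F} (hf : 0 ≤ v.ord f) :
    ∃ c : K, f = algebraMap K F c ∨ 0 < v.ord (f - algebraMap K F c) := by
  have hbij : Function.Bijective (algebraMap K v.ResidueField) :=
    IsAlgClosed.algebraMap_bijective_of_isIntegral
  obtain ⟨c, hc⟩ := hbij.2 (IsLocalRing.residue _ ⟨f, mem_of_ord_nonneg v hf⟩)
  refine ⟨c, ?_⟩
  rcases eq_or_ne f (algebraMap K F c) with h | h
  · exact Or.inl h
  refine Or.inr ?_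
  have hne : f - algebraMap K F c ≠ 0 := sub_ne_zero.2 h
  have hmem : f - algebraMap K F c ∈ v.toValuationSubring :=
    sub_mem (mem_of_ord_nonneg v hf) (v.algebraMap_mem' c)
  refine lt_of_le_of_ne (ord_nonneg_of_mem v hmem) fun h0 => ?_
  have hinv : (f - algebraMap K F c)⁻¹ ∈ v.toValuationSubring :=
    mem_of_ord_nonneg v (by rw [Place.ord_inv]; omega)
  have hu : IsUnit (⟨_, hmem⟩ : v.toValuationSubring) :=
    IsUnit.of_mul_eq_one ⟨_, hinv⟩ (Subtype.ext (mul_inv_cancel₀ hne))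
  refine (IsLocalRing.residue_ne_zero_iff_isUnit _).2 hu ?_
  rw [show (⟨_, hmem⟩ : v.toValuationSubring) =
    ⟨f, mem_of_ord_nonneg v hf⟩ - algebraMap K v.toValuationSubring c from Subtype.ext rfl,
    map_sub, ← hc]
  exact sub_self _

variable {Γ : Subgroup SL(2, ℤ)} [Γ.FiniteIndex] {F : Type*} [Field F] [Algebra ℂ F]

namespace Model

variable (M : Model Γ F)

/-- The representative of the class of `g Γ` in the fibre over `j τ₀`. -/
theorem exists_rep_point (τ₀ : ℍ) (g : SL(2, ℤ)) :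
    ∃ γ ∈ Γ, (Quotient.out (Quotient.mk'' (g : SL(2, ℤ) ⧸ Γ) :
      MulAction.orbitRel.Quotient (MulAction.stabilizer SL(2, ℤ) τ₀) (SL(2, ℤ) ⧸ Γ)) :
        SL(2, ℤ) ⧸ Γ).out⁻¹ • τ₀ = γ • g⁻¹ • τ₀ := by
  obtain ⟨s, hs⟩ : (Quotient.out (Quotient.mk'' (g : SL(2, ℤ) ⧸ Γ) :
      MulAction.orbitRel.Quotient (MulAction.stabilizer SL(2, ℤ) τ₀) (SL(2, ℤ) ⧸ Γ)) :
        SL(2, ℤ) ⧸ Γ) ∈ MulAction.orbit (MulAction.stabilizer SL(2, ℤ) τ₀)
          (g : SL(2, ℤ) ⧸ Γ) :=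
    MulAction.orbitRel_apply.1 (Quotient.exact (Quotient.out_eq _))
  obtain ⟨δ, hδ⟩ := QuotientGroup.mk_out_eq_mul Γ (s.1 * g)
  rw [← hs]
  show ∃ γ ∈ Γ, (((s.1 * g : SL(2, ℤ)) : SL(2, ℤ) ⧸ Γ).out)⁻¹ • τ₀ = γ • g⁻¹ • τ₀
  refine ⟨(δ : SL(2, ℤ))⁻¹, inv_mem δ.2, ?_⟩
  rw [hδ, mul_inv_rev, mul_inv_rev, mul_smul, mul_smul,
    show (s.1)⁻¹ • τ₀ = τ₀ from inv_smul_eq_iff.2 s.2.symm]

/-- The representative of a cusp class. -/
theorem exists_rep_cusp (g : SL(2, ℤ)) :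
    ∃ (k : ℤ) (γ : SL(2, ℤ)), γ ∈ Γ ∧ (Quotient.out (Quotient.mk'' (g : SL(2, ℤ) ⧸ Γ) :
      CuspSet Γ) : SL(2, ℤ) ⧸ Γ).out = T ^ k * g * γ := by
  obtain ⟨s, hs⟩ : (Quotient.out (Quotient.mk'' (g : SL(2, ℤ) ⧸ Γ) : CuspSet Γ) : SL(2, ℤ) ⧸ Γ) ∈
      MulAction.orbit (Subgroup.zpowers T) (g : SL(2, ℤ) ⧸ Γ) :=
    MulAction.orbitRel_apply.1 (Quotient.exact (Quotient.out_eq _))
  obtain ⟨k, hk⟩ := Subgroup.mem_zpowers_iff.1 s.2
  obtain ⟨δ, hδ⟩ := QuotientGroup.mk_out_eq_mul Γ (s.1 * g)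
  refine ⟨k, δ, δ.2, ?_⟩
  rw [← hs]
  show (((s.1 * g : SL(2, ℤ)) : SL(2, ℤ) ⧸ Γ).out) = _
  rw [hδ, hk]

theorem placeAt_smul {γ : SL(2, ℤ)} (hγ : γ ∈ Γ) (τ : ℍ) :
    M.placeAt (γ • τ) = M.placeAt τ := by
  rw [placeAt, placeAt, M.pointVal_smul hγ]

theorem cuspPlace_rep (g : SL(2, ℤ)) :
    M.cuspVal (Quotient.out (Quotient.mk'' (g : SL(2, ℤ) ⧸ Γ) : CuspSet Γ) :
      SL(2, ℤ) ⧸ Γ).out = M.cuspVal g := by
  obtain ⟨k, γ, hγ, h⟩ := exists_rep_cusp (Γ := Γ) g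
  rw [h, M.cuspVal_smul g k hγ]

theorem pointVal_rep (τ₀ : ℍ) (g : SL(2, ℤ)) :
    M.pointVal ((Quotient.out (Quotient.mk'' (g : SL(2, ℤ) ⧸ Γ) :
      MulAction.orbitRel.Quotient (MulAction.stabilizer SL(2, ℤ) τ₀) (SL(2, ℤ) ⧸ Γ)) :
        SL(2, ℤ) ⧸ Γ).out⁻¹ • τ₀) = M.pointVal (g⁻¹ • τ₀) := by
  obtain ⟨γ, hγ, h⟩ := exists_rep_point (Γ := Γ) τ₀ g
  rw [h, M.pointVal_smul hγ]

theorem index_pointVal (τ : ℍ) : (M.pointVal τ).index = ellPeriod Γ τ := by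
  obtain ⟨γ, hγ, h⟩ := exists_rep_point (Γ := Γ) τ 1
  have h1 := (M.fiber_point τ).1 (Quotient.mk'' ((1 : SL(2, ℤ)) : SL(2, ℤ) ⧸ Γ))
  simp only [h, M.pointVal_smul hγ, ellPeriod_smul hγ, inv_one, one_smul] at h1
  exact h1

theorem index_cuspVal (g : SL(2, ℤ)) : (M.cuspVal g).index = 1 := by
  rw [← M.cuspPlace_rep g]
  exact M.fiber_infty.1 _

/-! ### Orders -/

/-- The order at a point is the analytic order in the local parameter. -/
theorem ordH_ev {f : F} (hf : f ≠ 0) (τ : ℍ) :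
    ordH (M.ev f) τ = ((ellPeriod Γ τ * (M.placeAt τ).ord f : ℤ) : WithTop ℤ) := by
  obtain ⟨k, hk⟩ := WithTop.ne_top_iff_exists.1 (M.ordH_ev_ne_top hf τ)
  have h := (M.pointVal τ).w_eq hf
  rw [M.index_pointVal] at h
  change (ordH (M.ev f) τ).untop₀ = _ at h
  rw [← hk, WithTop.untop₀_coe] at h
  rw [← hk, h]
  rfl

/-- The order at a cusp is the order in `q_w`, `w` the width. -/
theorem order_cuspExp {f : F} (hf : f ≠ 0) (g : SL(2, ℤ)) :
    (M.cuspExp g f).order = (M.cuspPlace g).ord f := by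
  have h := (M.cuspVal g).w_eq hf
  rw [M.index_cuspVal, Nat.cast_one, one_mul] at h
  exact h

theorem cuspExp_ne_zero {f : F} (hf : f ≠ 0) (g : SL(2, ℤ)) : M.cuspExp g f ≠ 0 :=
  M.cuspExp_ne_zero' hf g

/-- The order at a cusp, read from an expansion of any period. -/
theorem width_mul_order {f : F} (hf : f ≠ 0) (g : SL(2, ℤ)) {h : ℕ} [NeZero h]
    {x : LaurentSeries ℂ} (hx : HasQExp h (fun τ => M.ev f (g⁻¹ • τ)) x) :
    (cuspWidth Γ g : ℤ) * x.order = h * (M.cuspPlace g).ord f := by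
  have h1 := hx.expand_period (cuspWidth Γ g)
  have h2 := (M.hasQExp_cuspExp g f).expand_period h
  rw [mul_comm] at h2
  have h3 := h1.unique h2
  have hx0 : x ≠ 0 := fun h0 => M.cuspExp_ne_zero hf g
    (qExpand_injective (R := ℂ) h (by rw [← h3, h0, map_zero, map_zero]))
  have h4 := congrArg HahnSeries.order h3
  rwa [order_qExpand _ hx0, order_qExpand _ (M.cuspExp_ne_zero hf g), M.order_cuspExp hf] at h4

theorem ord_sub_pos_iff (τ : ℍ) {f : F} (hf : 0 ≤ (M.placeAt τ).ord f) {c : ℂ}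
    (hc : f ≠ algebraMap ℂ F c) :
    0 < (M.placeAt τ).ord (f - algebraMap ℂ F c) ↔ nfH (M.ev f) τ = c := by
  have hne : f - algebraMap ℂ F c ≠ 0 := sub_ne_zero.2 hc
  have hE : (0 : ℤ) < ellPeriod Γ τ := by exact_mod_cast ellPeriod_pos M.neg_one_mem τ
  have hnn : 0 ≤ ordH (M.ev f) τ := by
    rcases eq_or_ne f 0 with rfl | hf0
    · rw [(ordH_eq_top_iff (M.mero 0)).2 M.ev_zero]
      exact le_top
    · rw [M.ordH_ev hf0, WithTop.coe_nonneg]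
      positivity
  have h : EqPunct (M.ev (f - algebraMap ℂ F c)) (M.ev f - fun _ => c) :=
    (M.ev_sub _ _).trans (eqPunct_sub (EqPunct.refl _) (M.ev_const c))
  rw [← ordH_sub_const_pos_iff (M.mero f) hnn c, ← h.ordH_eq τ, M.ordH_ev hne, WithTop.coe_pos]
  exact ⟨fun h => mul_pos hE h, fun h => pos_of_mul_pos_right h hE.le⟩

/-- A function is determined by its evaluation. -/
theorem eq_of_eqPunct {f g : F} (h : EqPunct (M.ev f) (M.ev g)) : f = g := by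
  by_contra hne
  refine M.not_eqPunct_zero (sub_ne_zero.2 hne) ((M.ev_sub f g).trans ?_)
  have := eqPunct_sub h (EqPunct.refl (M.ev g))
  rwa [sub_self] at this

/-! ### `j` at the points -/

theorem jF_ne_zero : M.jF ≠ 0 := fun h => M.jF_ne_algebraMap 0 (by simpa using h)

theorem ord_jF_cuspPlace (g : SL(2, ℤ)) :
    (M.cuspPlace g).ord M.jF = -(cuspWidth Γ g : ℤ) := by
  rw [← M.order_cuspExp M.jF_ne_zero, M.order_cuspExp_jF]

theorem ord_jF_sub_cuspPlace (g : SL(2, ℤ)) (c : ℂ) :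
    (M.cuspPlace g).ord (M.jF - algebraMap ℂ F c) = -(cuspWidth Γ g : ℤ) := by
  rw [sub_eq_add_neg, ← map_neg, ord_add_eq_left _ M.jF_ne_zero, M.ord_jF_cuspPlace]
  intro _
  rw [ord_algebraMap, M.ord_jF_cuspPlace]
  have := cuspWidth_pos (Γ := Γ) g
  omega

theorem ord_jF_placeAt_nonneg (τ : ℍ) : 0 ≤ (M.placeAt τ).ord M.jF := by
  have h := M.ev_jF.ordH_eq τ
  have hnn : 0 ≤ ordH jfun τ :=
    ((UpperHalfPlane.mdifferentiable_iff.1 mdifferentiable_jfun).analyticAt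
      (isOpen_upperHalfPlaneSet.mem_nhds τ.im_pos)).meromorphicOrderAt_nonneg
  rw [← h, M.ordH_ev M.jF_ne_zero, WithTop.coe_nonneg] at hnn
  exact nonneg_of_mul_nonneg_right hnn (by exact_mod_cast ellPeriod_pos M.neg_one_mem τ)

theorem placeAt_ne_cuspPlace (τ : ℍ) (g : SL(2, ℤ)) : M.placeAt τ ≠ M.cuspPlace g := by
  intro h
  have h1 := M.ord_jF_placeAt_nonneg τ
  rw [h, M.ord_jF_cuspPlace] at h1
  have := cuspWidth_pos (Γ := Γ) g
  omega

theorem ord_jF_sub_jfun (τ : ℍ) :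
    (M.placeAt τ).ord (M.jF - algebraMap ℂ F (jfun τ)) * ellPeriod Γ τ = ellPeriod ⊤ τ := by
  have h := M.ordH_jF_sub τ _ rfl
  rw [M.ordH_ev (M.jF_sub_ne_zero _), WithTop.untop₀_coe] at h
  linarith

theorem jfun_eq_of_ord_pos (τ : ℍ) (c : ℂ)
    (h : 0 < (M.placeAt τ).ord (M.jF - algebraMap ℂ F c)) : jfun τ = c := by
  have h1 := (M.ord_sub_pos_iff τ (M.ord_jF_placeAt_nonneg τ) (M.jF_ne_algebraMap c)).1 h
  have h2 : 0 < (M.placeAt τ).ord (M.jF - algebraMap ℂ F (jfun τ)) := by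
    refine pos_of_mul_pos_left (b := (ellPeriod Γ τ : ℤ)) ?_ (Int.natCast_nonneg _)
    rw [M.ord_jF_sub_jfun]
    exact_mod_cast ellPeriod_pos (Γ := ⊤) (Subgroup.mem_top _) τ
  exact ((M.ord_sub_pos_iff τ (M.ord_jF_placeAt_nonneg τ) (M.jF_ne_algebraMap _)).1 h2).symm.trans h1

theorem ord_jF_sub_pos_placeAt (τ : ℍ) :
    0 < (M.placeAt τ).ord (M.jF - algebraMap ℂ F (jfun τ)) := by
  refine pos_of_mul_pos_left (b := (ellPeriod Γ τ : ℤ)) ?_ (Int.natCast_nonneg _)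
  rw [M.ord_jF_sub_jfun]
  exact_mod_cast ellPeriod_pos (Γ := ⊤) (Subgroup.mem_top _) τ

/-! ### Points and places -/

theorem exists_placeAt_or_cuspPlace (v : Place ℂ F) :
    (∃ τ, M.placeAt τ = v) ∨ ∃ g, M.cuspPlace g = v := by
  haveI := M.isFunctionFieldOne
  haveI := finite_residueField (K := ℂ) v
  rcases lt_or_ge (v.ord M.jF) 0 with h | h
  · obtain ⟨a, ha⟩ := M.fiber_infty.2.2.1 v (by rw [Place.ord_inv]; omega)
    exact Or.inr ⟨_, ha⟩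
  · obtain ⟨c, hc | hc⟩ := exists_const_ord_pos v h
    · exact absurd hc (M.jF_ne_algebraMap c)
    · obtain ⟨τ₀, rfl⟩ := jfun_surjective c
      obtain ⟨a, ha⟩ := (M.fiber_point τ₀).2.2.1 v hc
      exact Or.inl ⟨_, ha⟩

theorem placeAt_eq_iff {τ τ' : ℍ} :
    M.placeAt τ = M.placeAt τ' ↔ ∃ γ ∈ Γ, γ • τ = τ' := by
  refine ⟨fun h => ?_, fun ⟨γ, hγ, hh⟩ => by rw [← hh, M.placeAt_smul hγ]⟩
  have hj : jfun τ' = jfun τ := M.jfun_eq_of_ord_pos τ' _ (h ▸ M.ord_jF_sub_pos_placeAt τ)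
  obtain ⟨η, hη⟩ := jfun_eq_iff.1 hj.symm
  have hplace : ∀ g : SL(2, ℤ), M.placeAt ((Quotient.out (Quotient.mk'' (g : SL(2, ℤ) ⧸ Γ) :
      MulAction.orbitRel.Quotient (MulAction.stabilizer SL(2, ℤ) τ) (SL(2, ℤ) ⧸ Γ)) :
        SL(2, ℤ) ⧸ Γ).out⁻¹ • τ) = M.placeAt (g⁻¹ • τ) := fun g => by
    rw [placeAt, placeAt, M.pointVal_rep]
  have heq := (M.fiber_point τ).2.1
    (a₁ := Quotient.mk'' ((η⁻¹ : SL(2, ℤ)) : SL(2, ℤ) ⧸ Γ))
    (a₂ := Quotient.mk'' ((1 : SL(2, ℤ)) : SL(2, ℤ) ⧸ Γ))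
    ((hplace _).trans ((show M.placeAt ((η⁻¹)⁻¹ • τ) = M.placeAt ((1 : SL(2, ℤ))⁻¹ • τ) by
      rw [inv_inv, hη, ← h, inv_one, one_smul]).trans (hplace 1).symm))
  obtain ⟨s, hs⟩ := MulAction.orbitRel_apply.1 (Quotient.exact heq)
  have hs' : ((s.1 * 1 : SL(2, ℤ)) : SL(2, ℤ) ⧸ Γ) = ((η⁻¹ : SL(2, ℤ)) : SL(2, ℤ) ⧸ Γ) := hs
  rw [mul_one, QuotientGroup.eq] at hs'
  refine ⟨η * s.1, ?_, by rw [mul_smul, show s.1 • τ = τ from s.2, hη]⟩
  have := inv_mem hs'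
  simpa using this

theorem cuspPlace_eq_iff {g g' : SL(2, ℤ)} :
    M.cuspPlace g = M.cuspPlace g' ↔
      ∃ h : ℤ, T ^ h • (g : SL(2, ℤ) ⧸ Γ) = (g' : SL(2, ℤ) ⧸ Γ) := by
  constructor
  · intro h
    have hplace : ∀ g : SL(2, ℤ),
        M.cuspPlace (Quotient.out (Quotient.mk'' (g : SL(2, ℤ) ⧸ Γ) : CuspSet Γ) :
          SL(2, ℤ) ⧸ Γ).out = M.cuspPlace g := fun g => by
      rw [cuspPlace, cuspPlace, M.cuspPlace_rep]
    have heq := M.fiber_infty.2.1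
      (a₁ := Quotient.mk'' (g' : SL(2, ℤ) ⧸ Γ)) (a₂ := Quotient.mk'' (g : SL(2, ℤ) ⧸ Γ))
      ((hplace g').trans (h.symm.trans (hplace g).symm))
    obtain ⟨s, hs⟩ := MulAction.orbitRel_apply.1 (Quotient.exact heq)
    obtain ⟨k, hk⟩ := Subgroup.mem_zpowers_iff.1 s.2
    exact ⟨k, by rw [hk]; exact hs⟩
  · rintro ⟨k, hk⟩
    rw [MulAction.Quotient.smul_coe, QuotientGroup.eq, smul_eq_mul] at hk
    have h1 : g' = T ^ k * g * ((T ^ k * g)⁻¹ * g') := by rw [mul_inv_cancel_left]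
    rw [cuspPlace, cuspPlace, h1, M.cuspVal_smul g k hk]

/-- The places are the points of `Γ \ ℍ*`. -/
def placeEquiv : PointSet Γ ≃ Place ℂ F :=
  Equiv.ofBijective
    (Sum.elim
      (Quotient.lift M.placeAt (by
        intro a b hab
        obtain ⟨γ, rfl⟩ := MulAction.mem_orbit_iff.1 hab
        exact M.placeAt_smul γ.2 b))
      (Quotient.lift (fun q : SL(2, ℤ) ⧸ Γ => M.cuspPlace q.out) (by
        intro a b hab
        obtain ⟨γ, hγ⟩ := MulAction.mem_orbit_iff.1 hab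
        obtain ⟨h, hh⟩ := Subgroup.mem_zpowers_iff.1 γ.2
        refine (M.cuspPlace_eq_iff.2 ⟨h, ?_⟩).symm
        rw [QuotientGroup.out_eq', QuotientGroup.out_eq', hh]
        exact hγ)))
    (by
      constructor
      · rintro (a | a) (b | b) h <;> obtain ⟨a, rfl⟩ := Quotient.exists_rep a <;>
          obtain ⟨b, rfl⟩ := Quotient.exists_rep b
        · obtain ⟨γ, hγ, hh⟩ := M.placeAt_eq_iff.1 h
          exact congrArg Sum.inl (Quotient.sound (MulAction.orbitRel_apply.2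
            (MulAction.mem_orbit_symm.1 ⟨⟨γ, hγ⟩, hh⟩)))
        · exact absurd h (M.placeAt_ne_cuspPlace _ _)
        · exact absurd h.symm (M.placeAt_ne_cuspPlace _ _)
        · obtain ⟨k, hk⟩ := M.cuspPlace_eq_iff.1 h
          rw [QuotientGroup.out_eq', QuotientGroup.out_eq'] at hk
          exact congrArg Sum.inr (Quotient.sound (MulAction.orbitRel_apply.2
            (MulAction.mem_orbit_symm.1 ⟨⟨T ^ k, ⟨k, rfl⟩⟩, hk⟩)))
      · intro v
        rcases M.exists_placeAt_or_cuspPlace v with ⟨τ, rfl⟩ | ⟨g, rfl⟩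
        · exact ⟨pointClass Γ τ, rfl⟩
        · refine ⟨cuspClass Γ g, M.cuspPlace_eq_iff.2 ⟨0, ?_⟩⟩
          rw [zpow_zero, one_smul, QuotientGroup.out_eq'])

theorem placeEquiv_pointClass (τ : ℍ) : M.placeEquiv (pointClass Γ τ) = M.placeAt τ := rfl

theorem placeEquiv_cuspClass (g : SL(2, ℤ)) :
    M.placeEquiv (cuspClass Γ g) = M.cuspPlace g := by
  show M.cuspPlace (g : SL(2, ℤ) ⧸ Γ).out = _
  exact M.cuspPlace_eq_iff.2 ⟨0, by rw [zpow_zero, one_smul, QuotientGroup.out_eq']⟩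

/-! ### Ramification over the `j`-line -/

theorem ord_jF_sub_pos_iff (v : Place ℂ F) (c : ℂ) :
    0 < v.ord (M.jF - algebraMap ℂ F c) ↔ ∃ τ, jfun τ = c ∧ M.placeAt τ = v := by
  refine ⟨fun h => ?_, fun ⟨τ, hτ, hv⟩ => hv ▸ hτ ▸ M.ord_jF_sub_pos_placeAt τ⟩
  rcases M.exists_placeAt_or_cuspPlace v with ⟨τ, rfl⟩ | ⟨g, rfl⟩
  · exact ⟨τ, M.jfun_eq_of_ord_pos τ c h, rfl⟩
  · rw [M.ord_jF_sub_cuspPlace] at h
    omega

theorem ord_jF_neg_iff (v : Place ℂ F) : v.ord M.jF < 0 ↔ ∃ g, M.cuspPlace g = v := by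
  refine ⟨fun h => ?_, fun ⟨g, hg⟩ => ?_⟩
  · rcases M.exists_placeAt_or_cuspPlace v with ⟨τ, rfl⟩ | hg
    · have := M.ord_jF_placeAt_nonneg τ
      omega
    · exact hg
  · rw [← hg, M.ord_jF_cuspPlace]
    have := cuspWidth_pos (Γ := Γ) g
    omega

theorem ord_jF_sub_eq_one (v : Place ℂ F) {c : ℂ} (h0 : c ≠ 0) (h1 : c ≠ 1728)
    (hv : 0 < v.ord (M.jF - algebraMap ℂ F c)) :
    v.ord (M.jF - algebraMap ℂ F c) = 1 := by
  obtain ⟨τ, rfl, rfl⟩ := (M.ord_jF_sub_pos_iff v c).1 hv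
  have h := M.ord_jF_sub_jfun τ
  rw [ellPeriod_top_eq, if_neg h0, if_neg h1, Nat.cast_one] at h
  exact Int.eq_one_of_mul_eq_one_right hv.le h

theorem ord_jF_sub_le_one (v : Place ℂ F) {c : ℂ} (h0 : c ≠ 0) (h1 : c ≠ 1728) :
    v.ord (M.jF - algebraMap ℂ F c) ≤ 1 := by
  rcases lt_or_ge 0 (v.ord (M.jF - algebraMap ℂ F c)) with h | h
  · rw [M.ord_jF_sub_eq_one v h0 h1 h]
  · omega

/-- The fibre over `j = c` is the set of orbits of the stabiliser of a preimage on the cosets. -/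
theorem card_fiber (τ : ℍ) :
    Nat.card {v : Place ℂ F // 0 < v.ord (M.jF - algebraMap ℂ F (jfun τ))} =
      Nat.card (MulAction.orbitRel.Quotient (MulAction.stabilizer SL(2, ℤ) τ)
        (SL(2, ℤ) ⧸ Γ)) := by
  obtain ⟨-, hinj, hsurj, -⟩ := M.fiber_point τ
  refine (Nat.card_eq_of_bijective
    (fun a => (⟨M.placeAt ((Quotient.out a : SL(2, ℤ) ⧸ Γ).out⁻¹ • τ), ?_⟩ :
      {v : Place ℂ F // 0 < v.ord (M.jF - algebraMap ℂ F (jfun τ))})) ⟨?_, ?_⟩).symm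
  · exact (M.ord_jF_sub_pos_iff _ _).2 ⟨_, jfun_smul _ _, rfl⟩
  · exact fun a b hab => hinj (congrArg Subtype.val hab)
  · rintro ⟨v, hv⟩
    obtain ⟨a, ha⟩ := hsurj v hv
    exact ⟨a, Subtype.ext ha⟩

theorem card_fiber_1728 :
    Nat.card {v : Place ℂ F // 0 < v.ord (M.jF - algebraMap ℂ F 1728)} =
      Nat.card (MulAction.orbitRel.Quotient (Subgroup.zpowers S) (SL(2, ℤ) ⧸ Γ)) := by
  have h := M.card_fiber UpperHalfPlane.I
  rw [jfun_I, stabilizer_I_eq] at h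
  exact h

theorem card_fiber_zero :
    Nat.card {v : Place ℂ F // 0 < v.ord M.jF} =
      Nat.card (MulAction.orbitRel.Quotient (Subgroup.zpowers (S * T)) (SL(2, ℤ) ⧸ Γ)) := by
  have h := M.card_fiber UpperHalfPlane.ρ
  rw [jfun_rho, stabilizer_rho_eq] at h
  simp only [map_zero, sub_zero] at h
  exact h

theorem card_fiber_infty :
    Nat.card {v : Place ℂ F // v.ord M.jF < 0} = Nat.card (CuspSet Γ) := by
  obtain ⟨-, hinj, hsurj, -⟩ := M.fiber_infty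
  refine (Nat.card_eq_of_bijective
    (fun a => (⟨M.cuspPlace (Quotient.out a : SL(2, ℤ) ⧸ Γ).out, ?_⟩ :
      {v : Place ℂ F // v.ord M.jF < 0})) ⟨?_, ?_⟩).symm
  · exact (M.ord_jF_neg_iff _).2 ⟨_, rfl⟩
  · exact fun a b hab => hinj (congrArg Subtype.val hab)
  · rintro ⟨v, hv⟩
    obtain ⟨a, ha⟩ := hsurj v (by rw [Place.ord_inv]; omega)
    exact ⟨a, Subtype.ext ha⟩

theorem finsum_max_ord {x : F} (hx : ℂ⟮x⟯ = ℂ⟮M.jF⟯) (ht : Transcendental ℂ x) :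
    ∑ᶠ v : Place ℂ F, max (v.ord x) 0 = Γ.index := by
  classical
  obtain ⟨Z, hZ, hsum⟩ := M.exists_zeros hx ht
  rw [finsum_eq_sum_of_support_subset _ (s := Z), ← hsum]
  · exact Finset.sum_congr rfl fun v hv => max_eq_left ((hZ v).1 hv).le
  · intro v hv
    simp only [Function.mem_support, ne_eq, max_eq_right_iff, not_le] at hv
    exact (hZ v).2 hv

theorem sum_ord_jF_sub (c : ℂ) :
    ∑ᶠ v : Place ℂ F, max (v.ord (M.jF - algebraMap ℂ F c)) 0 = Γ.index :=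
  M.finsum_max_ord (M.adjoin_jF_sub c) fun h => M.transcendental_jF
    (by simpa using h.add (isAlgebraic_algebraMap (R := ℂ) (A := F) c))

theorem sum_ord_jF_neg :
    ∑ᶠ v : Place ℂ F, max (-(v.ord M.jF)) 0 = Γ.index := by
  rw [← M.finsum_max_ord M.adjoin_jF_inv (transcendental_inv M.transcendental_jF)]
  simp only [Place.ord_inv]

end Model

end Fermat.Agent.Places
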