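/-
The function field `ℂ(j, j_N)` as a model for `Γ₀(N)`.
-/
import Fermat.Agent.Places.Main
import Fermat.Agent.ModFun.Field
import Fermat.Agent.Gamma0.Cusps
import Mathlib.FieldTheory.Relrank

set_option autoImplicit false

noncomputable section

open UpperHalfPlane IntermediateField CongruenceSubgroup ModularCurve Fermat.Agent.ModFun
open scoped MatrixGroups

namespace Fermat.Agent.Places

variable (N : ℕ) [NeZero N]

/-- `ℂ(j, j_N)` with its evaluation as functions on the upper half plane. -/
def x0Model : Model (Gamma0 N) (modularFunctionFieldC ℂ N) where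
  neg_one_mem := by simp [Gamma0_mem]
  jF := ⟨jqModC ℂ, jqModC_mem ℂ N⟩
  ev := toFun
  mero f := (isModularFun_toFun f).mero
  smul_eq f := (isModularFun_toFun f).smul_eq
  qexp f g := ⟨N, NeZero.pos N, (isModularFun_toFun f).cusps g⟩
  ev_add := toFun_add
  ev_mul := toFun_mul
  ev_const := toFun_algebraMap
  ev_jF := toFun_jq
  finrank_eq := by
    rw [Gamma0.index_Gamma0, ← relfinrank_modularFunctionFieldC ℂ N, ← relfinrank_top_right,
      ← relfinrank_map_map _ ⊤ (modularFunctionFieldC ℂ N).val]
    congr 1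
    · rw [adjoin_map, Set.image_singleton]
      rfl
    · rw [← AlgHom.fieldRange_eq_map, fieldRange_val]

theorem x0Model_ev (f : modularFunctionFieldC ℂ N) : (x0Model N).ev f = toFun f := rfl

theorem x0Model_jF : ((x0Model N).jF : LaurentSeries ℂ) = jqModC ℂ := rfl

theorem cuspWidth_Gamma0 (g : SL(2, ℤ)) : cuspWidth (Gamma0 N) g = Gamma0.width N g :=
  Gamma0.minimalPeriod_T_smul g

theorem index_Gamma0 : (Gamma0 N).index = dedekindPsi N :=
  Gamma0.index_Gamma0 N

/-- The `q`-expansion is the expansion at the cusp `∞`. -/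
theorem order_coe_eq_ord_infty {f : modularFunctionFieldC ℂ N} (hf : f ≠ 0) :
    ((x0Model N).cuspPlace 1).ord f = (f : LaurentSeries ℂ).order := by
  have hw : cuspWidth (Gamma0 N) 1 = 1 := by
    rw [cuspWidth_Gamma0]
    simp [Gamma0.width, NeZero.pos N]
  have hx : HasQExp 1 (fun τ => (x0Model N).ev f ((1 : SL(2, ℤ))⁻¹ • τ)) (f : LaurentSeries ℂ) := by
    simp only [inv_one, one_smul]
    exact hasQExp_toFun f
  have h := (x0Model N).width_mul_order hf 1 hx
  rw [hw] at h
  simpa using h.symm

end Fermat.Agent.Places
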